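import Fermat.Agent.S56.Flat.Defs

/-!
# S56 / Flat / FKAbs : abstract halves of [FK-INF] (product order) and [FK-OPEN] (the kernel is open)
-/

set_option autoImplicit false
set_option linter.unusedSectionVars false

namespace Fermat.Agent.S56.Flat

open Fermat.Agent.S56.Font

variable {Γ : Type} [Group Γ] {C : Type} [Field C] [MulSemiringAction Γ C]
  {Γ₀ : Type} [LinearOrderedCommGroupWithZero Γ₀] {v : Valuation C Γ₀}
  {X₁ X₂ : Type} [AddCommGroup X₁] [AddCommGroup X₂]

/-- the product action -/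
def prodAct (α₁ : Γ →* AddMonoid.End X₁) (α₂ : Γ →* AddMonoid.End X₂) :
    Γ →* AddMonoid.End (X₁ × X₂) where
  toFun g := AddMonoidHom.prodMap (α₁ g) (α₂ g)
  map_one' := by
    ext x : 1
    show (α₁ 1 x.1, α₂ 1 x.2) = x
    rw [map_one, map_one]
    rfl
  map_mul' g h := by
    ext x : 1
    show (α₁ (g * h) x.1, α₂ (g * h) x.2) = (α₁ g (α₁ h x.1), α₂ g (α₂ h x.2))
    rw [map_mul, map_mul]
    rfl

@[simp] theorem prodAct_apply (α₁ : Γ →* AddMonoid.End X₁) (α₂ : Γ →* AddMonoid.End X₂) (g : Γ)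
    (x : X₁ × X₂) : prodAct α₁ α₂ g x = (α₁ g x.1, α₂ g x.2) := rfl

theorem ker_prodAct_le (α₁ : Γ →* AddMonoid.End X₁) (α₂ : Γ →* AddMonoid.End X₂) :
    (prodAct α₁ α₂).ker ≤ α₁.ker ⊓ α₂.ker := by
  intro g hg
  rw [MonoidHom.mem_ker] at hg
  refine Subgroup.mem_inf.2 ⟨?_, ?_⟩
  · rw [MonoidHom.mem_ker]
    ext x : 1
    have := congrArg (fun f : AddMonoid.End (X₁ × X₂) => (f (x, 0)).1) hg
    exact this
  · rw [MonoidHom.mem_ker]
    ext x : 1
    have := congrArg (fun f : AddMonoid.End (X₁ × X₂) => (f (0, x)).2) hg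
    exact this

/-- the function `(x₁, x₂) ↦ a x₁ * b x₂` -/
def tens (a : X₁ → C) (b : X₂ → C) : X₁ × X₂ → C := fun x => a x.1 * b x.2

@[simp] theorem tens_apply (a : X₁ → C) (b : X₂ → C) (x : X₁ × X₂) :
    tens a b x = a x.1 * b x.2 := rfl

theorem tens_mul (a a' : X₁ → C) (b b' : X₂ → C) :
    tens a b * tens a' b' = tens (a * a') (b * b') := by
  funext x
  simp only [Pi.mul_apply, tens_apply]
  ring

theorem exists_fin_of_fintype' {X C : Type} [AddCommGroup X] [Field C] (P : (X → C) → Prop)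
    (a : X → C) (ι : Type) [Fintype ι] (b c : ι → X → C) (hb : ∀ i, P (b i)) (hc : ∀ i, P (c i))
    (h : ∀ x y, a (x + y) = ∑ i, b i x * c i y) :
    ∃ (n : ℕ) (b c : Fin n → X → C), (∀ i, P (b i)) ∧ (∀ i, P (c i)) ∧
      ∀ x y, a (x + y) = ∑ i, b i x * c i y := by
  let e := Fintype.equivFin ι
  refine ⟨Fintype.card ι, b ∘ e.symm, c ∘ e.symm, fun i => hb _, fun i => hc _, fun x y => ?_⟩
  rw [h x y]
  exact (Equiv.sum_comp e.symm (fun i => b i x * c i y)).symm

/-- **[FK-INF]**, abstract form: the product order. -/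
theorem HasFlat.prod [Finite X₁] [Finite X₂] {α₁ : Γ →* AddMonoid.End X₁}
    {α₂ : Γ →* AddMonoid.End X₂} (h₁ : HasFlat v α₁) (h₂ : HasFlat v α₂) :
    HasFlat v (prodAct α₁ α₂) := by
  classical
  obtain ⟨H₁, hH₁⟩ := h₁
  obtain ⟨H₂, hH₂⟩ := h₂
  let G : Set (X₁ × X₂ → C) := {f | ∃ a ∈ H₁, ∃ b ∈ H₂, f = tens a b}
  let M : Submodule ↥(O0 Γ v) (X₁ × X₂ → C) := Submodule.span ↥(O0 Γ v) G
  have hsm : ∀ (r : ↥(O0 Γ v)) (a : X₁ × X₂ → C) (x : X₁ × X₂), (r • a) x = (r : C) * a x :=
    fun _ _ _ => rfl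
  have hG : ∀ a ∈ H₁, ∀ b ∈ H₂, tens a b ∈ M := fun a ha b hb =>
    Submodule.subset_span ⟨a, ha, b, hb, rfl⟩
  have hmul : ∀ f ∈ M, ∀ g ∈ M, f * g ∈ M := by
    intro f hf g hg
    induction hf using Submodule.span_induction with
    | mem a ha =>
      induction hg using Submodule.span_induction with
      | mem b hb =>
        obtain ⟨a₁, ha₁, a₂, ha₂, rfl⟩ := ha
        obtain ⟨b₁, hb₁, b₂, hb₂, rfl⟩ := hb
        rw [tens_mul]
        exact hG _ (H₁.mul_mem ha₁ hb₁) _ (H₂.mul_mem ha₂ hb₂)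
      | zero => rw [mul_zero]; exact M.zero_mem
      | add x y _ _ hx hy => rw [mul_add]; exact M.add_mem hx hy
      | smul r x _ hx =>
        have h1 : a * r • x = r • (a * x) := by
          funext t
          rw [Pi.mul_apply, hsm, hsm, Pi.mul_apply]
          ring
        rw [h1]
        exact M.smul_mem r hx
    | zero => rw [zero_mul]; exact M.zero_mem
    | add x y _ _ hx hy => rw [add_mul]; exact M.add_mem hx hy
    | smul r x _ hx =>
      have h1 : r • x * g = r • (x * g) := by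
        funext t
        rw [Pi.mul_apply, hsm, hsm, Pi.mul_apply]
        ring
      rw [h1]
      exact M.smul_mem r hx
  have hone : (1 : X₁ × X₂ → C) ∈ M := by
    have : (1 : X₁ × X₂ → C) = tens 1 1 := by
      funext x
      simp
    rw [this]
    exact hG _ H₁.one_mem _ H₂.one_mem
  let H : Subring (X₁ × X₂ → C) :=
    { carrier := M
      mul_mem' := fun {f g} hf hg => hmul f hf g hg
      one_mem' := hone
      add_mem' := fun {f g} hf hg => M.add_mem hf hg
      zero_mem' := M.zero_mem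
      neg_mem' := fun {f} hf => M.neg_mem hf }
  refine ⟨H, ?_, ?_, ?_, ?_, ?_, ?_⟩
  · -- int
    intro a ha x
    have ha' : a ∈ M := ha
    clear ha
    induction ha' using Submodule.span_induction with
    | mem b hb =>
      obtain ⟨b₁, hb₁, b₂, hb₂, rfl⟩ := hb
      rw [tens_apply, map_mul]
      exact mul_le_one' (hH₁.int _ hb₁ _) (hH₂.int _ hb₂ _)
    | zero => rw [Pi.zero_apply, map_zero]; exact zero_le_one
    | add a b _ _ ha hb =>
      rw [Pi.add_apply]
      exact (v.map_add _ _).trans (max_le ha hb)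
    | smul r a _ ha =>
      rw [hsm, map_mul]
      exact mul_le_one' r.2.2 ha
  · -- span
    have key : ∀ f₁ ∈ Submodule.span C (H₁ : Set (X₁ → C)),
        ∀ f₂ ∈ Submodule.span C (H₂ : Set (X₂ → C)),
        tens f₁ f₂ ∈ Submodule.span C (H : Set (X₁ × X₂ → C)) := by
      intro f₁ hf₁ f₂ hf₂
      induction hf₁ using Submodule.span_induction with
      | mem a ha =>
        induction hf₂ using Submodule.span_induction with
        | mem b hb => exact Submodule.subset_span (hG a ha b hb)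
        | zero =>
          have : tens a (0 : X₂ → C) = 0 := by funext x; simp
          rw [this]; exact Submodule.zero_mem _
        | add x y _ _ hx hy =>
          have : tens a (x + y) = tens a x + tens a y := by
            funext t; simp [mul_add]
          rw [this]; exact Submodule.add_mem _ hx hy
        | smul r x _ hx =>
          have : tens a (r • x) = r • tens a x := by
            funext t; simp; ring
          rw [this]; exact Submodule.smul_mem _ r hx
      | zero =>
        have : tens (0 : X₁ → C) f₂ = 0 := by funext x; simp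
        rw [this]; exact Submodule.zero_mem _
      | add x y _ _ hx hy =>
        have : tens (x + y) f₂ = tens x f₂ + tens y f₂ := by
          funext t; simp [add_mul]
        rw [this]; exact Submodule.add_mem _ hx hy
      | smul r x _ hx =>
        have : tens (r • x) f₂ = r • tens x f₂ := by
          funext t; simp; ring
        rw [this]; exact Submodule.smul_mem _ r hx
    rw [eq_top_iff]
    intro f _
    have := Fintype.ofFinite X₁
    have := Fintype.ofFinite X₂
    have hf : f = ∑ x : X₁ × X₂, f x • tens (Pi.single x.1 (1 : C)) (Pi.single x.2 (1 : C)) := by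
      funext y
      rw [Finset.sum_apply, Finset.sum_eq_single y]
      · simp
      · intro x _ hxy
        rw [Pi.smul_apply, tens_apply]
        by_cases h1 : y.1 = x.1
        · have h2 : y.2 ≠ x.2 := fun h2 => hxy (Prod.ext h1.symm h2.symm)
          rw [Pi.single_eq_of_ne h2, mul_zero, smul_zero]
        · rw [Pi.single_eq_of_ne h1, zero_mul, smul_zero]
      · intro h; exact absurd (Finset.mem_univ y) h
    rw [hf]
    refine Submodule.sum_mem _ fun x _ => Submodule.smul_mem _ _ (key _ ?_ _ ?_)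
    · rw [hH₁.span]; trivial
    · rw [hH₂.span]; trivial
  · -- comul
    intro a ha
    have ha' : a ∈ M := ha
    suffices h : ∃ (ι : Type) (_ : Fintype ι) (b c : ι → X₁ × X₂ → C), (∀ i, b i ∈ H) ∧
        (∀ i, c i ∈ H) ∧ ∀ x y, a (x + y) = ∑ i, b i x * c i y by
      obtain ⟨ι, _, b, c, hb, hc, h⟩ := h
      exact exists_fin_of_fintype' (fun f => f ∈ H) a ι b c hb hc h
    clear ha
    induction ha' using Submodule.span_induction with
    | mem b hb =>
      obtain ⟨b₁, hb₁, b₂, hb₂, rfl⟩ := hb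
      obtain ⟨n, u, w, hu, hw, h⟩ := hH₁.comul b₁ hb₁
      obtain ⟨n', u', w', hu', hw', h'⟩ := hH₂.comul b₂ hb₂
      refine ⟨Fin n × Fin n', inferInstance, fun i => tens (u i.1) (u' i.2),
        fun i => tens (w i.1) (w' i.2), fun i => hG _ (hu _) _ (hu' _),
        fun i => hG _ (hw _) _ (hw' _), fun x y => ?_⟩
      rw [tens_apply, Prod.fst_add, Prod.snd_add, h, h', Finset.sum_mul_sum,
        Fintype.sum_prod_type]
      refine Finset.sum_congr rfl fun i _ => Finset.sum_congr rfl fun j _ => ?_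
      simp only [tens_apply]
      ring
    | zero =>
      exact ⟨Fin 0, inferInstance, fun _ => 0, fun _ => 0, fun i => i.elim0, fun i => i.elim0,
        fun x y => by simp⟩
    | add a a' _ _ ha ha' =>
      obtain ⟨ι, _, b, c, hb, hc, h⟩ := ha
      obtain ⟨ι', _, b', c', hb', hc', h'⟩ := ha'
      refine ⟨ι ⊕ ι', inferInstance, Sum.elim b b', Sum.elim c c', ?_, ?_, fun x y => ?_⟩
      · rintro (i | i)
        · exact hb i
        · exact hb' i
      · rintro (i | i)
        · exact hc i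
        · exact hc' i
      · rw [Fintype.sum_sum_type, Pi.add_apply, h, h']
        rfl
    | smul r a _ ha =>
      obtain ⟨ι, _, b, c, hb, hc, h⟩ := ha
      refine ⟨ι, inferInstance, fun i => r • b i, c, fun i => M.smul_mem r (hb i), hc,
        fun x y => ?_⟩
      rw [hsm, h, Finset.mul_sum]
      refine Finset.sum_congr rfl fun i _ => ?_
      show _ = (r • b i) x * c i y
      rw [hsm, mul_assoc]
  · -- eqv
    intro a ha g x
    have ha' : a ∈ M := ha
    clear ha
    induction ha' using Submodule.span_induction with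
    | mem b hb =>
      obtain ⟨b₁, hb₁, b₂, hb₂, rfl⟩ := hb
      rw [prodAct_apply, tens_apply, tens_apply, hH₁.eqv _ hb₁, hH₂.eqv _ hb₂, smul_mul']
    | zero => rw [Pi.zero_apply, Pi.zero_apply, smul_zero]
    | add a b _ _ ha hb => rw [Pi.add_apply, Pi.add_apply, ha, hb, smul_add]
    | smul r a _ ha => rw [hsm, hsm, ha, smul_mul', r.2.1 g]
  · -- smul
    intro r hr a ha
    exact M.smul_mem ⟨r, hr⟩ ha
  · -- fg
    obtain ⟨s₁, hs₁, hfg₁⟩ := hH₁.fg
    obtain ⟨s₂, hs₂, hfg₂⟩ := hH₂.fg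
    let s : Finset (X₁ × X₂ → C) := Finset.image₂ tens s₁ s₂
    have hsM : ∀ b ∈ s, b ∈ M := by
      intro b hb
      obtain ⟨b₁, hb₁, b₂, hb₂, rfl⟩ := Finset.mem_image₂.1 hb
      exact hG _ (hs₁ _ hb₁) _ (hs₂ _ hb₂)
    have hle : M ≤ Submodule.span ↥(O0 Γ v) (↑s : Set (X₁ × X₂ → C)) := by
      refine Submodule.span_le.2 ?_
      rintro _ ⟨a, ha, b, hb, rfl⟩
      obtain ⟨c, hc, hac⟩ := hfg₁ a ha
      obtain ⟨d, hd, hbd⟩ := hfg₂ b hb
      have h1 : tens a b = ∑ b₁ ∈ s₁, ∑ b₂ ∈ s₂,
          ((⟨c b₁, hc b₁⟩ : ↥(O0 Γ v)) * ⟨d b₂, hd b₂⟩) • tens b₁ b₂ := by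
        funext x
        conv_lhs => rw [hac, hbd]
        rw [tens_apply, Finset.sum_apply, Finset.sum_apply, Finset.sum_mul_sum, Finset.sum_apply]
        refine Finset.sum_congr rfl fun i _ => ?_
        rw [Finset.sum_apply]
        refine Finset.sum_congr rfl fun j _ => ?_
        rw [hsm, tens_apply, Pi.smul_apply, Pi.smul_apply, smul_eq_mul, smul_eq_mul]
        show _ = c i * d j * _
        ring
      rw [h1]
      exact Submodule.sum_mem _ fun b₁ hb₁ => Submodule.sum_mem _ fun b₂ hb₂ =>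
        Submodule.smul_mem _ _ (Submodule.subset_span (Finset.mem_image₂_of_mem hb₁ hb₂))
    refine ⟨s, hsM, fun a ha => ?_⟩
    obtain ⟨f, -, hf⟩ := Submodule.mem_span_finset.1 (hle (show a ∈ M from ha))
    exact ⟨fun b => (f b : C), fun b => (f b).2, hf.symm⟩

/-- **[FK-OPEN]**, abstract form: the kernel of the action is open. -/
theorem HasFlat.isOpenIn_ker {X : Type} [AddCommGroup X] [Finite X] {α : Γ →* AddMonoid.End X}
    (h : HasFlat v α) : IsOpenIn C α.ker := by
  classical
  obtain ⟨H, hH⟩ := h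
  have := Fintype.ofFinite X
  have hex : ∀ x x' : X, ∃ a ∈ H, x ≠ x' → a x ≠ a x' := by
    intro x x'
    by_cases hne : x = x'
    · exact ⟨0, H.zero_mem, fun h => absurd hne h⟩
    · obtain ⟨a, ha, h⟩ := hH.sep x x' hne
      exact ⟨a, ha, fun _ => h⟩
  choose a ha hsep using hex
  refine ⟨Finset.univ.image (fun z : X × X => a z.1 z.2 z.2), fun g hg => ?_⟩
  rw [MonoidHom.mem_ker]
  ext x : 1
  show α g x = x
  by_contra hne
  apply hsep (α g x) x hne
  rw [hH.eqv _ (ha _ _)]
  exact hg _ (Finset.mem_image.2 ⟨(α g x, x), Finset.mem_univ _, rfl⟩)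

theorem isOpenIn_mono {N N' : Subgroup Γ} (h : IsOpenIn C N) (hle : N ≤ N') : IsOpenIn C N' := by
  obtain ⟨T, hT⟩ := h
  exact ⟨T, fun g hg => hle (hT g hg)⟩

end Fermat.Agent.S56.Flat
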