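import Fermat.Agent.S56.Flat.Defs

/-!
# S56 / Flat / Sub  [F-SUB] : restriction of an equivariant order to a stable subgroup.

`φ : X' →+ X` injective, equivariant.  `H' := {a ∘ φ | a ∈ H}` (`H.map` of the ring hom `a ↦ a ∘ φ`).
`int`, `eqv`, `smul`, `comul` : immediate.  `fg` : the images of the generators.  `span` : `a ↦ a ∘ φ` is `C`-linear and
surjective (`Function.extend` / `Function.Injective.surjective_comp_right`), so it maps a spanning set to a spanning set.
-/

set_option autoImplicit false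

namespace Fermat.Agent.S56.Flat

open Fermat.Agent.S56.Font

variable {Γ : Type} [Group Γ] {C : Type} [Field C] [MulSemiringAction Γ C]
  {Γ₀ : Type} [LinearOrderedCommGroupWithZero Γ₀] {v : Valuation C Γ₀}
  {X X' : Type} [AddCommGroup X] [AddCommGroup X']
  {α : Γ →* AddMonoid.End X} {α' : Γ →* AddMonoid.End X'}

/-- **[F-SUB]** -/
theorem HasFlat.of_injective (φ : X' →+ X) (hφ : Function.Injective φ)
    (hα : ∀ g x, φ (α' g x) = α g (φ x)) (h : HasFlat v α) : HasFlat v α' := by
  classical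
  obtain ⟨H, hH⟩ := h
  let R : (X → C) →+* (X' → C) := RingHom.pi fun x' => Pi.evalRingHom (fun _ : X => C) (φ x')
  have hR : ∀ (a : X → C) (x' : X'), R a x' = a (φ x') := fun _ _ => rfl
  refine ⟨H.map R, ?_⟩
  refine
    { int := ?_, span := ?_, comul := ?_, eqv := ?_, smul := ?_, fg := ?_ }
  · rintro _ ⟨a, ha, rfl⟩ x
    exact hH.int a ha _
  · have h1 : ((H.map R : Subring (X' → C)) : Set (X' → C)) =
        (LinearMap.funLeft C C φ) '' (H : Set (X → C)) := rfl
    rw [h1, ← Submodule.map_span, hH.span, Submodule.map_top, LinearMap.range_eq_top]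
    exact LinearMap.funLeft_surjective_of_injective C C φ hφ
  · rintro _ ⟨a, ha, rfl⟩
    obtain ⟨n, b, c, hb, hc, habc⟩ := hH.comul a ha
    refine ⟨n, fun i => R (b i), fun i => R (c i), fun i => ⟨b i, hb i, rfl⟩,
      fun i => ⟨c i, hc i, rfl⟩, fun x y => ?_⟩
    rw [hR, map_add, habc]
    rfl
  · rintro _ ⟨a, ha, rfl⟩ g x
    rw [hR, hR, hα, hH.eqv a ha]
  · rintro r hr _ ⟨a, ha, rfl⟩
    exact ⟨r • a, hH.smul r hr a ha, rfl⟩
  · obtain ⟨s, hs, hfg⟩ := hH.fg
    refine ⟨s.image R, ?_, ?_⟩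
    · intro b' hb'
      obtain ⟨b, hb, rfl⟩ := Finset.mem_image.1 hb'
      exact ⟨b, hs b hb, rfl⟩
    · rintro _ ⟨a, ha, rfl⟩
      obtain ⟨c, hc, hac⟩ := hfg a ha
      refine ⟨fun b' => ∑ b ∈ s with R b = b', c b, fun b' => sum_mem fun b _ => hc b, ?_⟩
      have h2 : R a = ∑ b ∈ s, c b • R b := by
        conv_lhs => rw [hac]
        rw [map_sum]
        rfl
      rw [h2, ← Finset.sum_fiberwise_of_maps_to (t := s.image R) (g := R)
        (fun b hb => Finset.mem_image_of_mem R hb)]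
      refine Finset.sum_congr rfl fun b' _ => ?_
      rw [Finset.sum_smul]
      refine Finset.sum_congr rfl fun b hb => ?_
      rw [(Finset.mem_filter.1 hb).2]

end Fermat.Agent.S56.Flat
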