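import Fermat.Agent.S56.Flat.Defs
import Fermat.Agent.S56.Font.Main

/-!
# S56 / Flat / Kum0  [F-KUM0] : (KUM) for `HasFlat` (explicit action), and the case `L = K₀` ("peu ramifié").

`HasFlat.kum` : `letI : MulAction Γ X := MulAction.compHom ..` (or `{ smul := fun g x => α g x, .. }`), then `Font.IsFnOrder.kum hH.fn ..`;
`g ∈ kerAct Γ X ↔ α g = 1`.
`HasFlat.kum0` : `π = p`, `e = 1`, `stabilizer Γ (p : C) = ⊤` (`IsSH.fix`), `w = y ^ p`; `r` := the `y` of `kum`; `(y * r) ^ p = w * r ^ p`.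
`IsSH.arch` : `g = v x`, `d = v y`; `IsSH.unif {x, y}` + `Font.isTot_of_fixBy` + `IsTot.exists_val_eq_zpow`: `v x = v π ^ a`, `v y = v π ^ b`, `a ≥ 1`; `n := b.toNat`.
-/

set_option autoImplicit false

namespace Fermat.Agent.S56.Flat

open Fermat.Agent.S56.Font MulAction

variable {Γ : Type} [Group Γ] {C : Type} [Field C] [MulSemiringAction Γ C]
  {Γ₀ : Type} [LinearOrderedCommGroupWithZero Γ₀] {v : Valuation C Γ₀}
  {X : Type} [AddCommGroup X] {α : Γ →* AddMonoid.End X}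

/-- rank one. -/
theorem arch_of_isSH {ϖ : C} (hSH : IsSH Γ v ϖ) (hsurj : Function.Surjective v) :
    ∀ g : Γ₀, g < 1 → ∀ d : Γ₀, d ≠ 0 → ∃ n : ℕ, g ^ n ≤ d := by
  classical
  intro g hg d hd
  by_cases hg0 : g = 0
  · exact ⟨1, by rw [hg0, pow_one]; exact zero_le⟩
  obtain ⟨x, rfl⟩ := hsurj g
  obtain ⟨y, rfl⟩ := hsurj d
  have hx0 : x ≠ 0 := (Valuation.ne_zero_iff v).1 hg0
  have hy0 : y ≠ 0 := (Valuation.ne_zero_iff v).1 hd
  obtain ⟨N, π, hNT, hN, hfix, hπ⟩ := hSH.unif {x, y}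
  obtain ⟨htot, hstab⟩ := isTot_of_fixBy hSH hN hfix hπ
  have hxf : FixBy (stabilizer Γ π) x := by
    rw [hstab]
    exact fun s hs => hNT s hs x (by simp)
  have hyf : FixBy (stabilizer Γ π) y := by
    rw [hstab]
    exact fun s hs => hNT s hs y (by simp)
  obtain ⟨a, ha⟩ := htot.exists_val_eq_zpow hSH hxf hx0
  obtain ⟨b, hb⟩ := htot.exists_val_eq_zpow hSH hyf hy0
  have hπ1 : v π < 1 := by
    by_contra hcon
    rw [not_lt] at hcon
    have h1 : 1 ≤ v π ^ N.index := one_le_pow₀ hcon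
    rw [hπ] at h1
    exact absurd hSH.lt_one (not_lt.2 h1)
  have hπ0 : 0 < v π := by
    rw [pos_iff_ne_zero]
    intro h0
    rw [h0, zero_pow hN] at hπ
    exact (Valuation.ne_zero_iff v).2 hSH.ne_zero hπ.symm
  have hanti := zpow_right_strictAnti₀ hπ0 hπ1
  have ha1 : 1 ≤ a := by
    rw [ha, ← zpow_zero (v π)] at hg
    have := hanti.lt_iff_gt.mp hg
    omega
  refine ⟨b.toNat, ?_⟩
  rw [ha, hb, ← zpow_natCast, ← zpow_mul]
  refine hanti.le_iff_ge.mpr ?_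
  have h1 : b ≤ (b.toNat : ℤ) := Int.self_le_toNat b
  have h2 : (0 : ℤ) ≤ (b.toNat : ℤ) := Int.natCast_nonneg _
  nlinarith

/-- (KUM) -/
theorem HasFlat.kum [IsAlgClosed C] [Finite X] {p : ℕ} (hp : p.Prime) (hSH : IsSH Γ v (p : C))
    (harch : ∀ g : Γ₀, g < 1 → ∀ d : Γ₀, d ≠ 0 → ∃ n : ℕ, g ^ n ≤ d)
    (hX : ∀ x : X, p • x = 0) (h : HasFlat v α) {π : C} {e : ℕ} (hπe : π ^ e = (p : C))
    {y : C} (hy0 : y ≠ 0) (hyp : FixBy (stabilizer Γ π) (y ^ p))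
    (hfix : ∀ g : Γ, g • π = π → α g = 1 → g • y = y) :
    ∃ r : C, r ≠ 0 ∧ FixBy (stabilizer Γ π) r ∧ v ((y * r) ^ p - 1) ≤ v (p : C) := by
  classical
  obtain ⟨H, hH⟩ := h
  have : Fintype X := Fintype.ofFinite X
  letI : MulAction Γ X :=
    { smul := fun g x => α g x
      one_smul := fun x => by
        show α 1 x = x
        rw [map_one]
        rfl
      mul_smul := fun g g' x => by
        show α (g * g') x = α g (α g' x)
        rw [map_mul]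
        rfl }
  have hsm : ∀ (g : Γ) (x : X), g • x = α g x := fun _ _ => rfl
  obtain ⟨r, hr0, hrf, hr⟩ := IsFnOrder.kum (Γ := Γ) hH.fn hp hX harch hSH
    (fun a ha g w => hH.eqv a ha g w) hπe (w := y ^ p) (α := y) hyp (pow_ne_zero _ hy0) rfl
    (by
      intro s hs
      obtain ⟨hs1, hs2⟩ := Subgroup.mem_inf.1 hs
      refine hfix s hs1 ?_
      ext x
      exact mem_kerAct.1 hs2 x)
  exact ⟨r, hr0, hrf, by rwa [mul_pow]⟩

/-- (KUM) over `K₀` -/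
theorem HasFlat.kum0 [IsAlgClosed C] [Finite X] {p : ℕ} (hp : p.Prime) (hSH : IsSH Γ v (p : C))
    (harch : ∀ g : Γ₀, g < 1 → ∀ d : Γ₀, d ≠ 0 → ∃ n : ℕ, g ^ n ≤ d)
    (hX : ∀ x : X, p • x = 0) (h : HasFlat v α)
    {y : C} (hy0 : y ≠ 0) (hyp : Fix0 Γ (y ^ p)) (hfix : ∀ g : Γ, α g = 1 → g • y = y) :
    ∃ r : C, r ≠ 0 ∧ Fix0 Γ r ∧ v ((y * r) ^ p - 1) ≤ v (p : C) := by
  obtain ⟨r, hr0, hrf, hr⟩ := HasFlat.kum hp hSH harch hX h (π := (p : C)) (e := 1) (pow_one _) hy0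
    (fun s _ => hyp s) (fun g _ hg => hfix g hg)
  exact ⟨r, hr0, fun g => hrf g (hSH.fix g), hr⟩

end Fermat.Agent.S56.Flat
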