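import Fermat.Agent.S56.Flat.Sub
import Fermat.Agent.S56.Flat.Kum0
import Fermat.Agent.S56.Font.LT.Inst
import Fermat.Agent.S56.Loc.Ur
import Fermat.Agent.S32.OfModel
import Fermat.Agent.S19.A.Rl

/-!
# S56 / Flat / Bridge  [F-BR1], [F-BR2], [F-BR3] : from `GaloisRepAdic.IsFlatAt` to `HasFlat` for matrix actions of inertia.

`A | p` a place of `ℚ̄`, `Γ = A.inertiaSubgroupIn ℚ`, `C = ℚ̄`, `v = A.valuation`.
[F-BR1] `S32.HasOrder p X` (`X` a `G_ℚ`-module, `Subalgebra (Rl p) (X → Qb)`, `S32/Defs.lean`) ⟹ `HasFlat A.valuation (α restricted to Γ)`.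
   `H₁ :=` the set of finite sums `∑ r_i • a_i`, `r_i ∈ O₀ = O0 Γ v`, `a_i ∈ H` (`Submodule.span ↥O₀ H` as a set; a subring because `H` is).
   `int`: `a ∈ H` is integral over `ℤ_(p)` (`H` is a finite `Rl p`-module: `IsIntegral.of_finite` / `Subalgebra.isIntegral_of_fg`..), evaluation at `x` is a ring hom, so `a x` is
   integral over `ℤ_(p) ⊆ A`, and `A` is integrally closed (`ValuationSubring`; cf. `FLAT/`, `S19/A/Rl.lean` for `Rl p → A`).  `span`, `comul`, `eqv`, `fg`: from `IsOrder`.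
[F-BR2] `ρ.IsFlatAt p`, `S53.HasMatrix ρ r`, `R` finite ⟹ `S32.HasModel p (Fin 2 → R)` for the action `σ • x = r σ *ᵥ x`: take `I = ⊥` in `IsFlatAt`
   (`Finite (R ⧸ ⊥)`), `V ⧸ (⊥ • ⊤) ≃ V ≃ Fin 2 → R` (`b.equivFun`), equivariant by `HasMatrix` (`LinearMap.toMatrix_mulVec_repr`).  Then `S32.HasModel.hasOrder` and F-BR1.
[F-BR3] the residual representation: `x ↦ ε x`, `(Fin 2 → k) →+ (Fin 2 → k[ε])` is injective and equivariant (`IsLift`): F-SUB.
-/

set_option autoImplicit false

namespace Fermat.Agent.S56.Flat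

open Fermat.Agent.S56.Font
open CFT (Qb)

/-- the action of a subgroup of `G_ℚ` on column vectors through a matrix representation. -/
noncomputable def matAct {R : Type} [CommRing R] (G : Subgroup GQ) (r : GQ →* M2 R) :
    ↥G →* AddMonoid.End (Fin 2 → R) where
  toFun g := (Matrix.mulVecLin (r g)).toAddMonoidHom
  map_one' := by
    ext x : 1
    show (r ((1 : ↥G) : GQ)).mulVec x = x
    simp
  map_mul' g h := by
    ext x : 1
    show (r ((g * h : ↥G) : GQ)).mulVec x = (r g).mulVec ((r h).mulVec x)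
    rw [Matrix.mulVec_mulVec, Subgroup.coe_mul, map_mul]

@[simp] theorem matAct_apply {R : Type} [CommRing R] (G : Subgroup GQ) (r : GQ →* M2 R) (g : ↥G)
    (x : Fin 2 → R) : matAct G r g x = (r g).mulVec x := rfl

variable {p : ℕ} {A : ValuationSubring Qb}

/-- rank one -/
theorem arch_valuation (hp : p.Prime) (hA : A.LiesOverPrime p) :
    ∀ g : A.ValueGroup, g < 1 → ∀ d : A.ValueGroup, d ≠ 0 → ∃ n : ℕ, g ^ n ≤ d :=
  arch_of_isSH (isSH_inertia hp hA) A.valuation_surjective

/-- an element of `ℚ̄` integral over `ℤ_(p)` lies in `A`. -/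
theorem mem_of_isIntegral_Rl (hp : p.Prime) (hA : A.LiesOverPrime p) {z : Qb}
    (hz : IsIntegral (S19.Rl p) z) : z ∈ A := by
  have : Fact p.Prime := ⟨hp⟩
  obtain ⟨P, hP, hPz⟩ := hz
  let φ : S19.Rl p →+* A :=
    (algebraMap (S19.Rl p) Qb).codRestrict A.toSubring (S19.algebraMap_Rl_mem A hA)
  have h1 : IsIntegral A z := by
    refine ⟨P.map φ, hP.map φ, ?_⟩
    rw [Polynomial.eval₂_map]
    exact hPz
  obtain ⟨y, rfl⟩ := IsIntegrallyClosed.isIntegral_iff.1 h1
  exact y.2

/-- reindexing a finite sum by `Fin n`. -/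
theorem exists_fin_of_fintype {X C : Type} [AddCommGroup X] [Field C] (P : (X → C) → Prop)
    (a : X → C) (ι : Type) [Fintype ι] (b c : ι → X → C) (hb : ∀ i, P (b i)) (hc : ∀ i, P (c i))
    (h : ∀ x y, a (x + y) = ∑ i, b i x * c i y) :
    ∃ (n : ℕ) (b c : Fin n → X → C), (∀ i, P (b i)) ∧ (∀ i, P (c i)) ∧
      ∀ x y, a (x + y) = ∑ i, b i x * c i y := by
  let e := Fintype.equivFin ι
  refine ⟨Fintype.card ι, b ∘ e.symm, c ∘ e.symm, fun i => hb _, fun i => hc _, fun x y => ?_⟩
  rw [h x y]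
  exact (Equiv.sum_comp e.symm (fun i => b i x * c i y)).symm

/-- **[F-BR1]** -/
theorem hasFlat_of_hasOrder (hp : p.Prime) (hA : A.LiesOverPrime p) {X : Type} [AddCommGroup X]
    [Finite X] [SMul S19.Gam X] (α : GQ →* AddMonoid.End X) (hα : ∀ (g : GQ) (x : X), α g x = g • x)
    (h : S32.HasOrder p X) :
    HasFlat A.valuation (α.comp (A.inertiaSubgroupIn ℚ).subtype) := by
  classical
  have : Fact p.Prime := ⟨hp⟩
  obtain ⟨H, hH⟩ := h
  obtain ⟨s, hs⟩ := hH.fg
  let M : Submodule ↥(O0 ↥(A.inertiaSubgroupIn ℚ) A.valuation) (X → Qb) :=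
    Submodule.span ↥(O0 ↥(A.inertiaSubgroupIn ℚ) A.valuation) (↑s : Set (X → Qb))
  have hsm : ∀ (r : ↥(O0 ↥(A.inertiaSubgroupIn ℚ) A.valuation)) (a : X → Qb) (x : X),
      (r • a) x = (r : Qb) * a x := fun _ _ _ => rfl
  have hRl : ∀ r : S19.Rl p,
      algebraMap (S19.Rl p) Qb r ∈ O0 ↥(A.inertiaSubgroupIn ℚ) A.valuation := by
    intro r
    refine ⟨fun g => ?_, ?_⟩
    · exact (g : GQ).commutes (r : ℚ)
    · exact (A.valuation_le_one_iff _).2 (S19.algebraMap_Rl_mem A hA r)
  have hsH : ∀ b ∈ s, b ∈ H := by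
    intro b hb
    have h1 : b ∈ Subalgebra.toSubmodule H := by
      rw [← hs]
      exact Submodule.subset_span hb
    exact h1
  have hHM' : ∀ a ∈ Submodule.span (S19.Rl p) (↑s : Set (X → Qb)), a ∈ M := by
    intro a ha
    induction ha using Submodule.span_induction with
    | mem b hb => exact Submodule.subset_span hb
    | zero => exact M.zero_mem
    | add a b _ _ ha hb => exact M.add_mem ha hb
    | smul r a _ ha =>
      have h1 : r • a = (⟨algebraMap (S19.Rl p) Qb r, hRl r⟩ :
          ↥(O0 ↥(A.inertiaSubgroupIn ℚ) A.valuation)) • a := by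
        funext x
        rw [hsm, Pi.smul_apply, Algebra.smul_def]
      rw [h1]
      exact M.smul_mem _ ha
  have hHM : ∀ a ∈ H, a ∈ M := by
    intro a ha
    apply hHM'
    rw [hs]
    exact ha
  have hmul : ∀ f ∈ M, ∀ g ∈ M, f * g ∈ M := by
    intro f hf g hg
    induction hf using Submodule.span_induction with
    | mem a ha =>
      induction hg using Submodule.span_induction with
      | mem b hb => exact hHM _ (H.mul_mem (hsH a ha) (hsH b hb))
      | zero => rw [mul_zero]; exact M.zero_mem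
      | add x y _ _ hx hy => rw [mul_add]; exact M.add_mem hx hy
      | smul r x _ hx =>
        have h1 : a * r • x = r • (a * x) := by
          funext t
          rw [Pi.mul_apply, hsm, hsm, Pi.mul_apply]
          ring
        rw [h1]
        exact M.smul_mem r hx
    | zero => rw [zero_mul]; exact M.zero_mem
    | add x y _ _ hx hy => rw [add_mul]; exact M.add_mem hx hy
    | smul r x _ hx =>
      have h1 : r • x * g = r • (x * g) := by
        funext t
        rw [Pi.mul_apply, hsm, hsm, Pi.mul_apply]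
        ring
      rw [h1]
      exact M.smul_mem r hx
  let H₁ : Subring (X → Qb) :=
    { carrier := M
      mul_mem' := fun {f g} hf hg => hmul f hf g hg
      one_mem' := hHM 1 H.one_mem
      add_mem' := fun {f g} hf hg => M.add_mem hf hg
      zero_mem' := M.zero_mem
      neg_mem' := fun {f} hf => M.neg_mem hf }
  have hmem : ∀ a, a ∈ H₁ ↔ a ∈ M := fun _ => Iff.rfl
  refine ⟨H₁, ?_, ?_, ?_, ?_, ?_, ?_⟩
  · -- int
    intro a ha x
    have ha' : a ∈ M := ha
    clear ha
    induction ha' using Submodule.span_induction with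
    | mem b hb =>
      have h1 : IsIntegral (S19.Rl p) b := IsIntegral.of_mem_of_fg H hH.fg b (hsH b hb)
      have h2 : IsIntegral (S19.Rl p) (b x) :=
        h1.map (Pi.evalAlgHom (S19.Rl p) (fun _ : X => Qb) x)
      exact (A.valuation_le_one_iff _).2 (mem_of_isIntegral_Rl hp hA h2)
    | zero => rw [Pi.zero_apply, map_zero]; exact zero_le_one
    | add a b _ _ ha hb =>
      rw [Pi.add_apply]
      exact (A.valuation.map_add _ _).trans (max_le ha hb)
    | smul r a _ ha =>
      rw [hsm, map_mul]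
      exact mul_le_one' r.2.2 ha
  · -- span
    rw [eq_top_iff, ← hH.span]
    exact Submodule.span_mono fun a ha => hHM a ha
  · -- comul
    intro a ha
    have ha' : a ∈ M := ha
    suffices h : ∃ (ι : Type) (_ : Fintype ι) (b c : ι → X → Qb), (∀ i, b i ∈ H₁) ∧
        (∀ i, c i ∈ H₁) ∧ ∀ x y, a (x + y) = ∑ i, b i x * c i y by
      obtain ⟨ι, _, b, c, hb, hc, h⟩ := h
      exact exists_fin_of_fintype (fun f => f ∈ H₁) a ι b c hb hc h
    clear ha
    induction ha' using Submodule.span_induction with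
    | mem b hb =>
      obtain ⟨n, u, w, hu, hw, h⟩ := hH.comul b (hsH b hb)
      exact ⟨Fin n, inferInstance, u, w, fun i => hHM _ (hu i), fun i => hHM _ (hw i), h⟩
    | zero =>
      exact ⟨Fin 0, inferInstance, fun _ => 0, fun _ => 0, fun i => i.elim0, fun i => i.elim0,
        fun x y => by simp⟩
    | add a a' _ _ ha ha' =>
      obtain ⟨ι, _, b, c, hb, hc, h⟩ := ha
      obtain ⟨ι', _, b', c', hb', hc', h'⟩ := ha'
      refine ⟨ι ⊕ ι', inferInstance, Sum.elim b b', Sum.elim c c', ?_, ?_, fun x y => ?_⟩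
      · rintro (i | i)
        · exact hb i
        · exact hb' i
      · rintro (i | i)
        · exact hc i
        · exact hc' i
      · rw [Fintype.sum_sum_type, Pi.add_apply, h, h']
        rfl
    | smul r a _ ha =>
      obtain ⟨ι, _, b, c, hb, hc, h⟩ := ha
      refine ⟨ι, inferInstance, fun i => r • b i, c, fun i => M.smul_mem r (hb i), hc,
        fun x y => ?_⟩
      rw [hsm, h, Finset.mul_sum]
      refine Finset.sum_congr rfl fun i _ => ?_
      show _ = (r • b i) x * c i y
      rw [hsm, mul_assoc]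
  · -- eqv
    intro a ha g x
    have ha' : a ∈ M := ha
    have hg : (α.comp (A.inertiaSubgroupIn ℚ).subtype) g x = (g : GQ) • x := hα _ _
    rw [hg]
    clear ha
    induction ha' using Submodule.span_induction with
    | mem b hb => exact hH.eqv b (hsH b hb) (g : GQ) x
    | zero => rw [Pi.zero_apply, Pi.zero_apply, smul_zero]
    | add a b _ _ ha hb => rw [Pi.add_apply, Pi.add_apply, ha, hb, smul_add]
    | smul r a _ ha => rw [hsm, hsm, ha, smul_mul', r.2.1 g]
  · -- smul
    intro r hr a ha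
    exact M.smul_mem ⟨r, hr⟩ ha
  · -- fg
    refine ⟨s, fun b hb => Submodule.subset_span hb, fun a ha => ?_⟩
    obtain ⟨f, -, hf⟩ := Submodule.mem_span_finset.1 (show a ∈ M from ha)
    exact ⟨fun b => (f b : Qb), fun b => (f b).2, hf.symm⟩

/-- the action of `G_ℚ` on column vectors. -/
@[reducible] noncomputable def matDMA {R : Type} [CommRing R] (r : GQ →* M2 R) :
    DistribMulAction S19.Gam (Fin 2 → R) where
  smul σ x := (r σ).mulVec x
  one_smul x := by
    show (r 1).mulVec x = x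
    rw [map_one, Matrix.one_mulVec]
  mul_smul σ τ x := by
    show (r (σ * τ)).mulVec x = (r σ).mulVec ((r τ).mulVec x)
    rw [Matrix.mulVec_mulVec, map_mul]
  smul_zero σ := Matrix.mulVec_zero _
  smul_add σ x y := Matrix.mulVec_add _ _ _

/-- the model of `Fin 2 → R`. -/
theorem hasModel_matDMA {R : Type} [CommRing R]
    [IsLocalRing R] [Finite R] (ρ : GaloisRepAdic R) (r : GQ →* M2 R) (hm : S53.HasMatrix ρ r)
    (hf : ρ.IsFlatAt p) :
    letI := matDMA r
    S32.HasModel p (Fin 2 → R) := by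
  let _ := matDMA r
  obtain ⟨b, hb⟩ := hm
  have hfin : Finite (R ⧸ (⊥ : Ideal R)) :=
    Finite.of_surjective _ (Ideal.Quotient.mk_surjective (I := (⊥ : Ideal R)))
  obtain ⟨H, i1, i2, h1, h2, h3, e, he, hg⟩ := hf.2 ⊥ hfin
  let E : (ρ.V ⧸ ((⊥ : Ideal R) • (⊤ : Submodule R ρ.V))) ≃ₗ[R] (Fin 2 → R) :=
    (Submodule.quotEquivOfEqBot _ (Submodule.bot_smul _)).trans b.equivFun
  have hE : ∀ v : ρ.V, E (Submodule.Quotient.mk v) = b.repr v := fun v => rfl
  refine ⟨H, i1, i2, h1, h2, h3, e.trans E.toEquiv, fun f g => ?_, fun σ f g hfg => ?_⟩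
  · show E (e (f * g)) = E (e f) + E (e g)
    rw [he, map_add]
  · show E (e g) = (r σ).mulVec (E (e f))
    rw [hg σ f g hfg]
    obtain ⟨v, hv⟩ := Submodule.Quotient.mk_surjective _ (e f)
    have h4 : ρ.levelAction ⊥ σ (Submodule.Quotient.mk v) = Submodule.Quotient.mk (ρ.ρ σ v) := rfl
    rw [← hv, h4, hE, hE, ← hb σ, LinearMap.toMatrix_mulVec_repr]

/-- **[F-BR2]** -/
theorem hasFlat_matAct (hp : p.Prime) (hA : A.LiesOverPrime p) {R : Type} [CommRing R]
    [IsLocalRing R] [Finite R] (ρ : GaloisRepAdic R) (r : GQ →* M2 R) (hm : S53.HasMatrix ρ r)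
    (hf : ρ.IsFlatAt p) : HasFlat A.valuation (matAct (A.inertiaSubgroupIn ℚ) r) := by
  have : Fact p.Prime := ⟨hp⟩
  let _ := matDMA r
  have h1 : S32.HasOrder p (Fin 2 → R) := (hasModel_matDMA ρ r hm hf).hasOrder
  let α : GQ →* AddMonoid.End (Fin 2 → R) :=
    { toFun := fun g => (Matrix.mulVecLin (r g)).toAddMonoidHom
      map_one' := by
        ext x : 1
        show (r 1).mulVec x = x
        rw [map_one, Matrix.one_mulVec]
      map_mul' := fun g h => by
        ext x : 1
        show (r (g * h)).mulVec x = (r g).mulVec ((r h).mulVec x)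
        rw [Matrix.mulVec_mulVec, map_mul] }
  have h2 := hasFlat_of_hasOrder hp hA α (fun _ _ => rfl) h1
  exact h2

/-- **[F-BR3]** -/
theorem hasFlat_matAct_residual {k : Type} [Field k] (rbar : GQ →* M2 k)
    (r₁ : GQ →* M2 (DualNumber k)) (hl : IsLift rbar r₁)
    (h : HasFlat A.valuation (matAct (A.inertiaSubgroupIn ℚ) r₁)) :
    HasFlat A.valuation (matAct (A.inertiaSubgroupIn ℚ) rbar) := by
  let φ : (Fin 2 → k) →+ (Fin 2 → DualNumber k) :=
    { toFun := fun x i => TrivSqZeroExt.inr (x i)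
      map_zero' := by
        funext i
        exact TrivSqZeroExt.inr_zero _
      map_add' := fun x y => by
        funext i
        exact TrivSqZeroExt.inr_add _ _ _ }
  have hφ : Function.Injective φ := by
    intro x y hxy
    funext i
    exact TrivSqZeroExt.inr_injective (congrFun hxy i)
  refine HasFlat.of_injective φ hφ (fun g x => ?_) h
  funext i
  rw [matAct_apply, matAct_apply, ← hl (g : GQ)]
  show TrivSqZeroExt.inr (∑ j, ((r₁ g).map TrivSqZeroExt.fst) i j * x j) =
    ∑ j, (r₁ g) i j * TrivSqZeroExt.inr (x j)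
  rw [Fin.sum_univ_two, Fin.sum_univ_two]
  apply TrivSqZeroExt.ext
  · simp
  · simp [mul_comm]

end Fermat.Agent.S56.Flat
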