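import Fermat.Agent.S56.Flat.QuotAux

/-!
# S56 / Flat / Quot  [F-QUOT] : quotient of an equivariant order by a stable subgroup.

`φ : X →+ X''` surjective, equivariant, `Y = ker φ` (stable).  `H'' := {a'' | a'' ∘ φ ∈ H}` (`H.comap` of `a'' ↦ a'' ∘ φ`);
`H^Y := {a ∈ H | a (x + y) = a x, y ∈ Y}` is its image in `H`.
* `int`, `eqv`, `smul` : immediate (`φ` surjective).
* AVERAGE: for `a ∈ H`, `ā x := ∑_{y ∈ Y} a (x + y)` lies in `H^Y`: `a (x + y) = ∑ b i x * c i y`, so `ā = ∑ i, (∑_y c i y) • b i` and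
  `∑_{y ∈ Y} c i y ∈ O₀` (integral; fixed because `c i` is equivariant and `α g` permutes `Y`).
* `span` : `f'' ∘ φ = ∑ r j • a j` (`a j ∈ H`, `hH.span`); average: `#Y • f'' ∘ φ = ∑ r j • ā j`; `(#Y : C) ≠ 0`.
* BASES.  `T a := fun (x, y : Y) => a (x + y) - a x` (`C`-linear, `ker T ∩ H = H^Y`).  `s` = generators of `H`.
  F-Q2 for `T '' s`: `h_1 .. h_m ∈ s` with `T h_i` `K₀`-independent and `T b = ∑ r_i(b) T h_i`, `r_i(b) ∈ O₀`, `b ∈ s`.
  - `H^Y` is generated over `O₀` by `b - ∑ r_i(b) h_i`, `b ∈ s`  [`a = ∑ c_b b ∈ H^Y` ⟹ `0 = T a = ∑_i (∑_b c_b r_i(b)) T h_i` ⟹ `∑_b c_b r_i(b) = 0`]: this is `fg`.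
  - F-Q2 for these generators: `e_1 .. e_r ∈ H^Y`, `K₀`-independent, generating `H^Y`.  `E := (e_j) ∪ (h_i)` generates `H` over `O₀`, is `K₀`-independent (apply `T`), hence `C`-independent (F-Q1).
* `comul` : `a ∈ H^Y`, `a (x + x') = ∑ b_k x * c_k x' = ∑_{μ ν} m_{μν} E_μ x * E_ν x'`, `m_{μν} ∈ O₀`.  Invariance in `x`:
  `∑_ν (∑_μ m_{μν} (T E_μ)(x,y)) E_ν x' = 0` for all `x'`, so `∑_μ m_{μν} T E_μ = 0`, so `m_{μν} = 0` if `μ` is one of the `h_i`.  Same for `ν`.
  So `a (x + x') = ∑_{j j'} m_{jj'} e_j x * e_j' x'`.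
-/

set_option autoImplicit false

namespace Fermat.Agent.S56.Flat

open Fermat.Agent.S56.Font

variable {Γ : Type} [Group Γ] {C : Type} [Field C] [MulSemiringAction Γ C]
  {Γ₀ : Type} [LinearOrderedCommGroupWithZero Γ₀] {v : Valuation C Γ₀}

namespace QuotPf

variable (Γ C) in
/-- `K₀`-independence of a finite family. -/
def KInd {E ι : Type} [AddCommGroup E] [Module C E] [Fintype ι] (w : ι → E) : Prop :=
  ∀ c : ι → C, (∀ i, Fix0 Γ (c i)) → ∑ i, c i • w i = 0 → ∀ i, c i = 0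

/-- family version of [F-Q2]. -/
theorem exists_indep_family (v : Valuation C Γ₀) {E κ : Type} [AddCommGroup E] [Module C E]
    (w : κ → E) (s : Finset κ) :
    ∃ t : Finset κ, t ⊆ s ∧ KInd Γ C (fun i : ↥t => w i) ∧
      ∀ a ∈ s, w a ∈ Submodule.span ↥(O0 Γ v) (w '' (t : Set κ)) := by
  classical
  induction s using Finset.strongInduction with
  | H s ih =>
    by_cases hs : KInd Γ C (fun i : ↥s => w i)
    · exact ⟨s, subset_rfl, hs, fun a ha => Submodule.subset_span ⟨a, ha, rfl⟩⟩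
    · unfold KInd at hs
      push Not at hs
      obtain ⟨c, hcfix, hc0, i₁, hi₁⟩ := hs
      obtain ⟨i₀, -, hmax⟩ := Finset.exists_max_image Finset.univ (fun i : ↥s => v (c i))
        ⟨i₁, Finset.mem_univ _⟩
      have hci₀ : c i₀ ≠ 0 := by
        intro h0
        have h1 := hmax i₁ (Finset.mem_univ _)
        simp only [h0, map_zero] at h1
        exact hi₁ ((map_eq_zero v).1 (le_antisymm h1 zero_le))
      obtain ⟨t, hts, hind, hgen⟩ := ih (s.erase i₀) (Finset.erase_ssubset i₀.2)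
      refine ⟨t, hts.trans (Finset.erase_subset _ _), hind, fun a ha => ?_⟩
      by_cases hab : a = i₀
      · have hrO : ∀ i : ↥s, -(c i) / c i₀ ∈ O0 Γ v := by
          intro i
          refine ⟨?_, ?_⟩
          · simp only [div_eq_mul_inv]
            exact (hcfix i).neg.mul (hcfix i₀).inv
          · simp only [map_div₀, Valuation.map_neg]
            exact div_le_one_of_le₀ (hmax i (Finset.mem_univ _)) zero_le
        have heq : w a = ∑ i ∈ Finset.univ.erase i₀, (-(c i) / c i₀) • w i := by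
          rw [← Finset.add_sum_erase Finset.univ _ (Finset.mem_univ i₀)] at hc0
          have h1 : c i₀ • w i₀ = -∑ i ∈ Finset.univ.erase i₀, c i • w i :=
            eq_neg_of_add_eq_zero_left hc0
          have h2 : w i₀ = (c i₀)⁻¹ • (c i₀ • w i₀) := by
            rw [smul_smul, inv_mul_cancel₀ hci₀, one_smul]
          rw [hab, h2, h1, ← Finset.sum_neg_distrib, Finset.smul_sum]
          refine Finset.sum_congr rfl fun i _ => ?_
          rw [← neg_smul, smul_smul, div_eq_inv_mul]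
        rw [heq]
        refine Submodule.sum_mem _ fun i hi => ?_
        have hi' : (i : κ) ∈ s.erase i₀ :=
          Finset.mem_erase.2 ⟨fun h => (Finset.mem_erase.1 hi).1 (Subtype.ext h), i.2⟩
        exact Submodule.smul_mem _ (⟨_, hrO i⟩ : ↥(O0 Γ v)) (hgen i hi')
      · exact hgen a (Finset.mem_erase.2 ⟨hab, ha⟩)

/-- an element of the `O₀`-span of a finite set, with explicit coefficients. -/
theorem exists_coeff {M : Type} [AddCommGroup M] [Module C M] {t : Finset M} {a : M}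
    (ha : a ∈ Submodule.span ↥(O0 Γ v) (t : Set M)) :
    ∃ c : ↥t → C, (∀ i, c i ∈ O0 Γ v) ∧ a = ∑ i, c i • (i : M) := by
  have h1 : a ∈ Submodule.span ↥(O0 Γ v) ((id : M → M) '' (t : Set M)) := by rwa [Set.image_id]
  obtain ⟨c, hc⟩ := (Submodule.mem_span_image_finset_iff_exists_fun ↥(O0 Γ v)).1 h1
  exact ⟨fun i => (c i : C), fun i => (c i).2, hc.symm⟩

/-- **adapted generators.** -/
theorem exists_adapted (v : Valuation C Γ₀) {M M' : Type} [AddCommGroup M] [Module C M]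
    [AddCommGroup M'] [Module C M'] (T : M →ₗ[C] M') (s : Finset M) :
    ∃ t₁ t₂ : Finset M,
      (∀ h ∈ t₁, h ∈ Submodule.span ↥(O0 Γ v) (s : Set M)) ∧
      (∀ e ∈ t₂, e ∈ Submodule.span ↥(O0 Γ v) (s : Set M)) ∧ (∀ e ∈ t₂, T e = 0) ∧
      KInd Γ C (fun i : ↥t₁ => T i) ∧ KInd Γ C (fun i : ↥t₂ => (i : M)) ∧
      (∀ a ∈ Submodule.span ↥(O0 Γ v) (s : Set M), T a = 0 →
        a ∈ Submodule.span ↥(O0 Γ v) (t₂ : Set M)) ∧
      Submodule.span ↥(O0 Γ v) (s : Set M) ≤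
        Submodule.span ↥(O0 Γ v) (t₂ : Set M) ⊔ Submodule.span ↥(O0 Γ v) (t₁ : Set M) := by
  classical
  obtain ⟨t₁, ht₁s, hK₁, hgen₁⟩ := exists_indep_family (Γ := Γ) v T s
  have hex : ∀ b ∈ s, ∃ u ∈ Submodule.span ↥(O0 Γ v) (t₁ : Set M), T u = T b := by
    intro b hb
    have h1 := hgen₁ b hb
    have h2 : Submodule.span ↥(O0 Γ v) (T '' (t₁ : Set M))
        = Submodule.map (T.restrictScalars ↥(O0 Γ v)) (Submodule.span ↥(O0 Γ v) (t₁ : Set M)) :=
      (Submodule.map_span (T.restrictScalars ↥(O0 Γ v)) (t₁ : Set M)).symm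
    rw [h2] at h1
    obtain ⟨u, hu, hTu⟩ := Submodule.mem_map.1 h1
    exact ⟨u, hu, hTu⟩
  choose! u hu hTu using hex
  obtain ⟨t₂, ht₂s, hK₂, hgen₂⟩ :=
    exists_indep_family (Γ := Γ) v (id : M → M) (s.image fun b => b - u b)
  rw [Set.image_id] at hgen₂
  simp only [id] at hgen₂
  have hle₁ : Submodule.span ↥(O0 Γ v) (t₁ : Set M) ≤ Submodule.span ↥(O0 Γ v) (s : Set M) :=
    Submodule.span_mono (by exact_mod_cast ht₁s)
  have hs0 : ∀ e ∈ s.image fun b => b - u b,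
      e ∈ Submodule.span ↥(O0 Γ v) (s : Set M) ∧ T e = 0 := by
    intro e he
    obtain ⟨b, hb, rfl⟩ := Finset.mem_image.1 he
    exact ⟨Submodule.sub_mem _ (Submodule.subset_span hb) (hle₁ (hu b hb)),
      by rw [map_sub, hTu b hb, sub_self]⟩
  have hker : ∀ p ∈ Submodule.span ↥(O0 Γ v) (t₂ : Set M), T p = 0 := by
    have : Submodule.span ↥(O0 Γ v) (t₂ : Set M) ≤ LinearMap.ker (T.restrictScalars ↥(O0 Γ v)) :=
      Submodule.span_le.2 fun e he => LinearMap.mem_ker.2 (hs0 e (ht₂s he)).2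
    exact fun p hp => LinearMap.mem_ker.1 (this hp)
  have hinj : ∀ n ∈ Submodule.span ↥(O0 Γ v) (t₁ : Set M), T n = 0 → n = 0 := by
    intro n hn hTn
    obtain ⟨c, hcO, rfl⟩ := exists_coeff hn
    rw [map_sum] at hTn
    simp only [map_smul] at hTn
    have := hK₁ c (fun i => (hcO i).1) hTn
    simp [this]
  have hsup : Submodule.span ↥(O0 Γ v) (s : Set M) ≤
      Submodule.span ↥(O0 Γ v) (t₂ : Set M) ⊔ Submodule.span ↥(O0 Γ v) (t₁ : Set M) := by
    refine Submodule.span_le.2 fun b hb => ?_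
    have : b = (b - u b) + u b := by abel
    rw [this]
    exact Submodule.add_mem_sup (hgen₂ _ (Finset.mem_image_of_mem _ hb)) (hu b hb)
  refine ⟨t₁, t₂, fun h hh => Submodule.subset_span (ht₁s hh), fun e he => (hs0 e (ht₂s he)).1,
    fun e he => (hs0 e (ht₂s he)).2, hK₁, hK₂, fun a ha hTa => ?_, hsup⟩
  obtain ⟨p, hp, n, hn, rfl⟩ := Submodule.mem_sup.1 (hsup ha)
  rw [map_add, hker p hp, zero_add] at hTa
  rw [hinj n hn hTa, add_zero]
  exact hp


section Geo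

variable {X X'' : Type} [AddCommGroup X] [AddCommGroup X'']

/-- pull back of functions. -/
def pb (C : Type) [Field C] (φ : X →+ X'') : (X'' → C) →+* (X → C) where
  toFun a := a ∘ φ
  map_one' := rfl
  map_mul' _ _ := rfl
  map_zero' := rfl
  map_add' _ _ := rfl

@[simp] theorem pb_apply (φ : X →+ X'') (a : X'' → C) (x : X) : pb C φ a x = a (φ x) := rfl

/-- the difference operator `a ↦ ((x, y) ↦ a (x + y) - a x)`, `y ∈ ker φ`. -/
def dT (C : Type) [Field C] (φ : X →+ X'') : (X → C) →ₗ[C] (X × ↥φ.ker → C) where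
  toFun a := fun z => a (z.1 + z.2) - a z.1
  map_add' a b := by
    funext z
    simp only [Pi.add_apply]
    ring
  map_smul' r a := by
    funext z
    simp only [Pi.smul_apply, smul_eq_mul, RingHom.id_apply]
    ring

@[simp] theorem dT_apply (φ : X →+ X'') (a : X → C) (z : X × ↥φ.ker) :
    dT C φ a z = a (z.1 + z.2) - a z.1 := rfl

theorem dT_pb (φ : X →+ X'') (a : X'' → C) : dT C φ (pb C φ a) = 0 := by
  funext z
  have h : φ (z.2 : X) = 0 := z.2.2
  simp [h]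

theorem exists_pb_eq {φ : X →+ X''} (hφ : Function.Surjective φ) {a : X → C}
    (ha : dT C φ a = 0) : ∃ a'' : X'' → C, pb C φ a'' = a := by
  refine ⟨a ∘ Function.surjInv hφ, ?_⟩
  funext x
  have hy : Function.surjInv hφ (φ x) - x ∈ φ.ker := by
    rw [AddMonoidHom.mem_ker, map_sub, Function.surjInv_eq hφ, sub_self]
  have h1 := congrFun ha (x, ⟨_, hy⟩)
  simp only [dT_apply, add_sub_cancel, Pi.zero_apply] at h1
  exact sub_eq_zero.1 h1

theorem pb_injective {φ : X →+ X''} (hφ : Function.Surjective φ) :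
    Function.Injective (pb C φ) := by
  intro a b hab
  funext x''
  obtain ⟨x, rfl⟩ := hφ x''
  exact congrFun hab x

end Geo

/-- from a generating family to a generating finite set. -/
theorem exists_coeff_image {M ι : Type} [AddCommGroup M] [Module C M] [Fintype ι] [DecidableEq M]
    (S : Subring C) (g : ι → M) (c : ι → C) (hc : ∀ i, c i ∈ S) :
    ∃ c' : M → C, (∀ b, c' b ∈ S) ∧ ∑ i, c i • g i = ∑ b ∈ Finset.univ.image g, c' b • b := by
  refine ⟨fun b => ∑ i ∈ Finset.univ.filter (fun i => g i = b), c i,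
    fun b => sum_mem fun i _ => hc i, ?_⟩
  symm
  apply Finset.sum_image'
  intro i _
  rw [Finset.sum_smul]
  refine Finset.sum_congr rfl fun j hj => ?_
  rw [(Finset.mem_filter.1 hj).2]

/-- coefficients of a bilinear expansion in a `C`-independent family. -/
theorem coeff_eq_zero_of_invariant {X ι : Type} [Fintype ι] (E : ι → X → C)
    (hE : ∀ c : ι → C, ∑ μ, c μ • E μ = 0 → ∀ μ, c μ = 0) (m : ι → ι → C) (x₁ x₂ : X)
    (h : ∀ x', ∑ μ, ∑ ν, m μ ν * (E μ x₁ * E ν x') = ∑ μ, ∑ ν, m μ ν * (E μ x₂ * E ν x')) (ν : ι) :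
    ∑ μ, m μ ν * (E μ x₁ - E μ x₂) = 0 := by
  refine hE (fun ν => ∑ μ, m μ ν * (E μ x₁ - E μ x₂)) ?_ ν
  funext x'
  simp only [Finset.sum_apply, Pi.smul_apply, smul_eq_mul, Pi.zero_apply]
  have h1 := h x'
  rw [← sub_eq_zero] at h1
  rw [← h1, ← Finset.sum_sub_distrib]
  simp only [Finset.sum_mul]
  rw [Finset.sum_comm]
  refine Finset.sum_congr rfl fun μ _ => ?_
  rw [← Finset.sum_sub_distrib]
  refine Finset.sum_congr rfl fun ν _ => ?_
  ring

section Main

variable {X X'' : Type} [AddCommGroup X] [AddCommGroup X'']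
  {α : Γ →* AddMonoid.End X} {α'' : Γ →* AddMonoid.End X''} {H : Subring (X → C)}

theorem mem_iff_mem_span (hH : IsEqOrder v α H) {s : Finset (X → C)} (hsH : ∀ b ∈ s, b ∈ H)
    (hsgen : ∀ a ∈ H, ∃ c : (X → C) → C, (∀ b, c b ∈ O0 Γ v) ∧ a = ∑ b ∈ s, c b • b)
    (a : X → C) : a ∈ H ↔ a ∈ Submodule.span ↥(O0 Γ v) (s : Set (X → C)) := by
  constructor
  · intro ha
    obtain ⟨c, hc, rfl⟩ := hsgen a ha
    exact Submodule.sum_mem _ fun b hb =>
      Submodule.smul_mem _ (⟨c b, hc b⟩ : ↥(O0 Γ v)) (Submodule.subset_span hb)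
  · intro ha
    induction ha using Submodule.span_induction with
    | mem x hx => exact hsH x hx
    | zero => exact H.zero_mem
    | add x y _ _ hx hy => exact H.add_mem hx hy
    | smul r x _ hx => exact hH.smul r.1 r.2 x hx

/-- the average over `ker φ`. -/
def avg (C : Type) [Field C] (φ : X →+ X'') [Fintype ↥φ.ker] : (X → C) →ₗ[C] (X → C) where
  toFun a := fun x => ∑ y : ↥φ.ker, a (x + y)
  map_add' a b := by
    funext x
    simp only [Pi.add_apply, Finset.sum_add_distrib]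
  map_smul' r a := by
    funext x
    simp only [Pi.smul_apply, smul_eq_mul, RingHom.id_apply, Finset.mul_sum]

theorem avg_apply (φ : X →+ X'') [Fintype ↥φ.ker] (a : X → C) (x : X) :
    avg C φ a x = ∑ y : ↥φ.ker, a (x + y) := rfl

theorem dT_avg (φ : X →+ X'') [Fintype ↥φ.ker] (a : X → C) : dT C φ (avg C φ a) = 0 := by
  funext z
  simp only [dT_apply, avg_apply, Pi.zero_apply]
  rw [sub_eq_zero, ← Equiv.sum_comp (Equiv.addLeft z.2) (fun y : ↥φ.ker => a (z.1 + y))]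
  refine Finset.sum_congr rfl fun y _ => ?_
  simp only [Equiv.coe_addLeft, AddSubgroup.coe_add, add_assoc]

theorem avg_pb (φ : X →+ X'') [Fintype ↥φ.ker] (a : X'' → C) :
    avg C φ (pb C φ a) = (Fintype.card ↥φ.ker : C) • pb C φ a := by
  funext x
  have h : ∀ y : ↥φ.ker, φ (y : X) = 0 := fun y => y.2
  simp [avg_apply, h]

theorem avg_mem (hH : IsEqOrder v α H) (φ : X →+ X'') [Fintype ↥φ.ker]
    (hα : ∀ g x, φ (α g x) = α'' g (φ x)) {a : X → C} (ha : a ∈ H) : avg C φ a ∈ H := by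
  obtain ⟨n, b, c, hb, hc, hbc⟩ := hH.comul a ha
  have hker : ∀ (g : Γ) (y : ↥φ.ker), α g (y : X) ∈ φ.ker := by
    intro g y
    rw [AddMonoidHom.mem_ker, hα, (y.2 : φ (y : X) = 0), map_zero]
  have h1 : avg C φ a = ∑ i, (∑ y : ↥φ.ker, c i y) • b i := by
    funext x
    simp only [avg_apply, hbc, Finset.sum_apply, Pi.smul_apply, smul_eq_mul]
    rw [Finset.sum_comm]
    refine Finset.sum_congr rfl fun i _ => ?_
    rw [Finset.sum_mul]
    exact Finset.sum_congr rfl fun y _ => mul_comm _ _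
  rw [h1]
  refine sum_mem fun i _ => hH.smul _ ⟨fun g => ?_, ?_⟩ _ (hb i)
  · let e : ↥φ.ker ≃ ↥φ.ker :=
      { toFun := fun y => ⟨α g y, hker g y⟩
        invFun := fun y => ⟨α g⁻¹ y, hker g⁻¹ y⟩
        left_inv := fun y => Subtype.ext (act_inv_act α g y)
        right_inv := fun y => Subtype.ext (act_act_inv α g y) }
    rw [Finset.smul_sum, ← Equiv.sum_comp e (fun y : ↥φ.ker => c i y)]
    exact Finset.sum_congr rfl fun y _ => (hH.eqv _ (hc i) g y).symm
  · exact Valuation.map_sum_le v fun y _ => hH.int _ (hc i) _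

/-- expansion in the adapted family. -/
theorem exists_coeff_sup {M : Type} [AddCommGroup M] [Module C M] {t₁ t₂ : Finset M} {a : M}
    (ha : a ∈ Submodule.span ↥(O0 Γ v) (t₂ : Set M) ⊔ Submodule.span ↥(O0 Γ v) (t₁ : Set M)) :
    ∃ c : ↥t₂ ⊕ ↥t₁ → C, (∀ μ, c μ ∈ O0 Γ v) ∧
      a = ∑ μ, c μ • (Sum.elim (fun j : ↥t₂ => (j : M)) (fun i : ↥t₁ => (i : M)) μ) := by
  obtain ⟨p, hp, n, hn, rfl⟩ := Submodule.mem_sup.1 ha
  obtain ⟨c₂, hc₂, rfl⟩ := exists_coeff hp
  obtain ⟨c₁, hc₁, rfl⟩ := exists_coeff hn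
  refine ⟨Sum.elim c₂ c₁, ?_, ?_⟩
  · rintro (j | i)
    · exact hc₂ j
    · exact hc₁ i
  · rw [Fintype.sum_sum_type]
    simp only [Sum.elim_inl, Sum.elim_inr]

theorem kind_sum_elim {M M' ι₁ ι₂ : Type} [AddCommGroup M] [Module C M] [AddCommGroup M']
    [Module C M'] [Fintype ι₁] [Fintype ι₂] (T : M →ₗ[C] M') (e₂ : ι₂ → M) (e₁ : ι₁ → M)
    (h0 : ∀ j, T (e₂ j) = 0) (hK₁ : KInd Γ C (fun i => T (e₁ i))) (hK₂ : KInd Γ C e₂) :
    KInd Γ C (Sum.elim e₂ e₁) := by
  intro c hc h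
  rw [Fintype.sum_sum_type] at h
  simp only [Sum.elim_inl, Sum.elim_inr] at h
  have h1 := congrArg T h
  simp only [map_add, map_sum, map_smul, h0, smul_zero, Finset.sum_const_zero, zero_add,
    map_zero] at h1
  have h2 := hK₁ (fun i => c (Sum.inr i)) (fun i => hc _) h1
  simp only [h2, zero_smul, Finset.sum_const_zero, add_zero] at h
  have h3 := hK₂ (fun j => c (Sum.inl j)) (fun j => hc _) h
  rintro (j | i)
  · exact h3 j
  · exact h2 i

theorem coeff_inr_eq_zero {ι₁ ι₂ : Type} [Fintype ι₁] [Fintype ι₂] (φ : X →+ X'')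
    (E : ι₂ ⊕ ι₁ → X → C) (hE : ∀ c : ι₂ ⊕ ι₁ → C, ∑ μ, c μ • E μ = 0 → ∀ μ, c μ = 0)
    (h0 : ∀ j, dT C φ (E (Sum.inl j)) = 0) (hK₁ : KInd Γ C (fun i => dT C φ (E (Sum.inr i))))
    (m : ι₂ ⊕ ι₁ → ι₂ ⊕ ι₁ → C) (hm : ∀ μ ν, Fix0 Γ (m μ ν))
    (hinv : ∀ (x : X) (y : ↥φ.ker) (x' : X),
      ∑ μ, ∑ ν, m μ ν * (E μ (x + y) * E ν x') = ∑ μ, ∑ ν, m μ ν * (E μ x * E ν x'))
    (i : ι₁) (ν : ι₂ ⊕ ι₁) : m (Sum.inr i) ν = 0 := by
  refine hK₁ (fun i => m (Sum.inr i) ν) (fun i => hm _ _) ?_ i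
  funext z
  have h1 := coeff_eq_zero_of_invariant E hE m (z.1 + z.2) z.1 (hinv z.1 z.2) ν
  rw [Fintype.sum_sum_type] at h1
  have h2 : ∀ j, E (Sum.inl j) (z.1 + z.2) - E (Sum.inl j) z.1 = 0 := fun j => congrFun (h0 j) z
  simp only [h2, mul_zero, Finset.sum_const_zero, zero_add] at h1
  simpa only [Finset.sum_apply, Pi.smul_apply, smul_eq_mul, dT_apply, Pi.zero_apply] using h1

end Main

end QuotPf

variable {X X'' : Type} [AddCommGroup X] [AddCommGroup X'']
  {α : Γ →* AddMonoid.End X} {α'' : Γ →* AddMonoid.End X''}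

open QuotPf in
/-- **[F-QUOT]** -/
theorem HasFlat.of_surjective [CharZero C] [Finite X] (φ : X →+ X'') (hφ : Function.Surjective φ)
    (hα : ∀ g x, φ (α g x) = α'' g (φ x)) (h : HasFlat v α) : HasFlat v α'' := by
  classical
  obtain ⟨H, hH⟩ := h
  have : Fintype ↥φ.ker := Fintype.ofFinite _
  obtain ⟨s, hsH, hsgen⟩ := hH.fg
  have hL1 := mem_iff_mem_span hH hsH hsgen
  obtain ⟨t₁, t₂, ht₁, ht₂, hT₂, hK₁, hK₂, hker, hsup⟩ :=
    exists_adapted (Γ := Γ) v (dT C φ) s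
  have hex : ∀ j : ↥t₂, ∃ e'' : X'' → C, pb C φ e'' = (j : X → C) :=
    fun j => exists_pb_eq hφ (hT₂ j j.2)
  choose e'' he'' using hex
  have he''H : ∀ j, e'' j ∈ H.comap (pb C φ) := fun j => by
    rw [Subring.mem_comap, he'']
    exact (hL1 _).2 (ht₂ j j.2)
  have hpbsmul : ∀ (r : C) (a'' : X'' → C), pb C φ (r • a'') = r • pb C φ a'' := fun _ _ => rfl
  have hsmul'' : ∀ r ∈ O0 Γ v, ∀ a'' ∈ H.comap (pb C φ), r • a'' ∈ H.comap (pb C φ) := by
    intro r hr a'' ha''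
    exact hH.smul r hr _ ha''
  refine ⟨H.comap (pb C φ), ?_, ?_, ?_, ?_, hsmul'', ?_⟩
  · -- int
    intro a'' ha'' x''
    obtain ⟨x, rfl⟩ := hφ x''
    exact hH.int _ ha'' x
  · -- span
    rw [eq_top_iff]
    intro f'' _
    have key : ∀ f ∈ Submodule.span C (H : Set (X → C)),
        ∃ g'' ∈ Submodule.span C ((H.comap (pb C φ) : Subring (X'' → C)) : Set (X'' → C)),
          pb C φ g'' = avg C φ f := by
      intro f hf
      induction hf using Submodule.span_induction with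
      | mem a ha =>
        obtain ⟨a'', ha''⟩ := exists_pb_eq hφ (dT_avg φ a)
        refine ⟨a'', Submodule.subset_span ?_, ha''⟩
        change pb C φ a'' ∈ H
        rw [ha'']
        exact avg_mem hH φ hα ha
      | zero => exact ⟨0, Submodule.zero_mem _, by simp⟩
      | add x y _ _ hx hy =>
        obtain ⟨gx, hgx, hx⟩ := hx
        obtain ⟨gy, hgy, hy⟩ := hy
        exact ⟨gx + gy, Submodule.add_mem _ hgx hgy, by rw [map_add, map_add, hx, hy]⟩
      | smul r x _ hx =>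
        obtain ⟨gx, hgx, hx⟩ := hx
        exact ⟨r • gx, Submodule.smul_mem _ r hgx, by rw [hpbsmul, map_smul, hx]⟩
    obtain ⟨g'', hg'', hg⟩ := key (pb C φ f'') (by rw [hH.span]; trivial)
    rw [avg_pb, ← hpbsmul] at hg
    have hg2 := pb_injective hφ hg
    have hN : (Fintype.card ↥φ.ker : C) ≠ 0 := Nat.cast_ne_zero.2 Fintype.card_ne_zero
    have hf : f'' = (Fintype.card ↥φ.ker : C)⁻¹ • g'' := by
      rw [hg2, smul_smul, inv_mul_cancel₀ hN, one_smul]
    rw [hf]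
    exact Submodule.smul_mem _ _ hg''
  · -- comul
    intro a'' ha''
    obtain ⟨n, b, c, hb, hc, hbc⟩ := hH.comul _ ha''
    set E : ↥t₂ ⊕ ↥t₁ → X → C :=
      Sum.elim (fun j : ↥t₂ => (j : X → C)) (fun i : ↥t₁ => (i : X → C)) with hEdef
    have hEH : ∀ μ, E μ ∈ H := by
      rintro (j | i)
      · exact (hL1 _).2 (ht₂ j j.2)
      · exact (hL1 _).2 (ht₁ i i.2)
    have hKE : KInd Γ C E := kind_sum_elim (dT C φ) _ _ (fun j => hT₂ j j.2) hK₁ hK₂
    have hE := eq_zero_of_sum_smul_eq_zero α E (fun μ g x => hH.eqv _ (hEH μ) g x) hKE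
    have hexp : ∀ a ∈ H, ∃ c : ↥t₂ ⊕ ↥t₁ → C, (∀ μ, c μ ∈ O0 Γ v) ∧ a = ∑ μ, c μ • E μ :=
      fun a ha => exists_coeff_sup (hsup ((hL1 a).1 ha))
    choose β hβ hbβ using fun k => hexp (b k) (hb k)
    choose γ hγ hcγ using fun k => hexp (c k) (hc k)
    have hbx : ∀ k x, b k x = ∑ μ, β k μ * E μ x := fun k x => by
      have := congrFun (hbβ k) x
      simpa only [Finset.sum_apply, Pi.smul_apply, smul_eq_mul] using this
    have hcx : ∀ k x, c k x = ∑ μ, γ k μ * E μ x := fun k x => by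
      have := congrFun (hcγ k) x
      simpa only [Finset.sum_apply, Pi.smul_apply, smul_eq_mul] using this
    obtain ⟨m, hm⟩ : ∃ m : ↥t₂ ⊕ ↥t₁ → ↥t₂ ⊕ ↥t₁ → C, ∀ μ ν, m μ ν = ∑ k, β k μ * γ k ν :=
      ⟨_, fun _ _ => rfl⟩
    have hmO : ∀ μ ν, m μ ν ∈ O0 Γ v := fun μ ν => by
      rw [hm]
      exact sum_mem fun k _ => mul_mem (hβ k μ) (hγ k ν)
    have hexpand : ∀ x x', a'' (φ (x + x')) = ∑ μ, ∑ ν, m μ ν * (E μ x * E ν x') := by
      intro x x'
      have h0 := hbc x x'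
      rw [pb_apply] at h0
      rw [h0]
      calc ∑ k, b k x * c k x'
          = ∑ k, ∑ μ, ∑ ν, (β k μ * γ k ν) * (E μ x * E ν x') := by
            refine Finset.sum_congr rfl fun k _ => ?_
            rw [hbx, hcx, Finset.sum_mul_sum]
            exact Finset.sum_congr rfl fun μ _ => Finset.sum_congr rfl fun ν _ => by ring
        _ = ∑ μ, ∑ k, ∑ ν, (β k μ * γ k ν) * (E μ x * E ν x') := Finset.sum_comm
        _ = ∑ μ, ∑ ν, m μ ν * (E μ x * E ν x') := by
            refine Finset.sum_congr rfl fun μ _ => ?_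
            rw [Finset.sum_comm]
            refine Finset.sum_congr rfl fun ν _ => ?_
            rw [hm, Finset.sum_mul]
    have hy0 : ∀ y : ↥φ.ker, φ (y : X) = 0 := fun y => y.2
    have hz1 : ∀ i ν, m (Sum.inr i) ν = 0 :=
      coeff_inr_eq_zero φ E hE (fun j => hT₂ j j.2) hK₁ m (fun μ ν => (hmO μ ν).1) (by
        intro x y x'
        rw [← hexpand, ← hexpand]
        simp only [map_add, hy0, add_zero])
    have hz2 : ∀ i μ, m μ (Sum.inr i) = 0 :=
      coeff_inr_eq_zero φ E hE (fun j => hT₂ j j.2) hK₁ (fun ν μ => m μ ν)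
        (fun μ ν => (hmO ν μ).1) (by
        intro x y x'
        have h1 : ∀ z z', ∑ μ, ∑ ν, m ν μ * (E μ z * E ν z') = a'' (φ (z' + z)) := by
          intro z z'
          rw [hexpand, Finset.sum_comm]
          exact Finset.sum_congr rfl fun μ _ => Finset.sum_congr rfl fun ν _ => by ring
        rw [h1, h1]
        simp only [map_add, hy0, add_zero])
    have hEe : ∀ j x, E (Sum.inl j) x = e'' j (φ x) := fun j x => (congrFun (he'' j) x).symm
    have hfinal : ∀ x x', a'' (φ x + φ x') = ∑ j : ↥t₂, ∑ j' : ↥t₂,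
        m (Sum.inl j) (Sum.inl j') * (e'' j (φ x) * e'' j' (φ x')) := by
      intro x x'
      rw [← map_add, hexpand]
      simp only [Fintype.sum_sum_type, hz1, hz2, zero_mul, Finset.sum_const_zero, add_zero, hEe]
    let eq := Fintype.equivFin (↥t₂ × ↥t₂)
    refine ⟨Fintype.card (↥t₂ × ↥t₂),
      fun i => m (Sum.inl (eq.symm i).1) (Sum.inl (eq.symm i).2) • e'' (eq.symm i).1,
      fun i => e'' (eq.symm i).2, fun i => hsmul'' _ (hmO _ _) _ (he''H _), fun i => he''H _, ?_⟩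
    intro x'' y''
    obtain ⟨x, rfl⟩ := hφ x''
    obtain ⟨y, rfl⟩ := hφ y''
    rw [hfinal, Equiv.sum_comp eq.symm (fun p : ↥t₂ × ↥t₂ =>
      (m (Sum.inl p.1) (Sum.inl p.2) • e'' p.1) (φ x) * e'' p.2 (φ y)), Fintype.sum_prod_type]
    refine Finset.sum_congr rfl fun j _ => Finset.sum_congr rfl fun j' _ => ?_
    simp only [Pi.smul_apply, smul_eq_mul, mul_assoc]
  · -- eqv
    intro a'' ha'' g x''
    obtain ⟨x, rfl⟩ := hφ x''
    rw [← hα]
    exact hH.eqv _ ha'' g x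
  · -- fg
    refine ⟨Finset.univ.image e'', ?_, ?_⟩
    · intro b hb
      obtain ⟨j, -, rfl⟩ := Finset.mem_image.1 hb
      exact he''H j
    · intro a'' ha''
      have h1 := hker _ ((hL1 _).1 ha'') (dT_pb φ a'')
      obtain ⟨c, hc, hac⟩ := exists_coeff h1
      obtain ⟨c', hc', hcc'⟩ := exists_coeff_image (O0 Γ v) e'' c hc
      refine ⟨c', hc', ?_⟩
      rw [← hcc']
      apply pb_injective (C := C) hφ
      rw [hac, map_sum]
      refine Finset.sum_congr rfl fun j _ => ?_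
      rw [hpbsmul, he'']

end Fermat.Agent.S56.Flat
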