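import Fermat.Agent.S56.Flat.Conn

/-!
# S56 / Flat / Theta  [F-TH] : a point on which `Γ` acts through a non trivial `𝔽_p^×`-valued character: the character is cyclotomic.

`x ≠ 0`, `α g x = n g • x`, not all `= x`.  `ζ` a primitive `p`-th root of unity.  CLAIM `g • ζ = ζ ^ n g`.
(1) `x ∈ X0`: `(n g - 1) • x = α g x - x ∈ X0` with `p ∤ n g - 1` for some `g`; `X0` is a subgroup, `p • x = 0` (Bezout).
(2) [TH1] if `v (b x - b 0) ≤ γ`, `v (b x' - b 0) ≤ γ'` for all `b ∈ H` then `v (a (x + x') - a x - a x' + a 0) ≤ γ γ'`: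
     the expression is `∑ (b i x - b i 0) * (c i x' - c i 0)`.
    [TH2] hence (induction on `m`, `γ ≤ 1`) `v (b (m • x) - b 0) ≤ γ` and `v (a (m • x) - a 0 - m * (a x - a 0)) ≤ γ ^ 2`.
(3) `γ := max_{b ∈ s} v (b x - b 0)` (`s` = generators, `fg`): `v (a x - a 0) ≤ γ` for all `a ∈ H`, with equality for some `a₀`; `0 < γ < 1`
    (`sep`, (1)).  `Font.eq_of_near` (with `τ = γ`, `w' = 0`) : NOT `γ ^ (p-1) < v p`.
(4) `γ ^ (p-1) ≤ v p`: `y := a₀ x - a₀ 0`, `g • y = a₀ (n g • x) - a₀ 0` (`eqv`), so the orbit `Font.orbF hSH y` is contained in `{a₀ (m • x) - a₀ 0 | 1 ≤ m < p}`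
    (`n g • x = (n g % p) • x`, `n g % p ≠ 0` as `α g` is injective): `card ≤ p - 1`.  `Font.fix0_prod_orbF`, `Font.val_prod_orbF`: `γ ^ card = v (fixed element) < 1`, so `≤ v p`
    (`Font.val_le_of_lt_one`), and `γ ^ (p-1) ≤ γ ^ card`.  With (3): `γ ^ (p-1) = v p`.
(5) [TH3] `λ := ζ - 1`: `v λ ^ (p-1) = v p` (`∏_{0<j<p} (1 - ζ^j) = p`, `(1 - ζ^j)/(1 - ζ)` and its inverse are integral), so `v λ = γ` (`Font.val_eq_of_pow`);
    `g • ζ = ζ ^ c` (`c : ℕ`) and `v (g • λ - c * λ) < v λ`  (`ζ^c - 1 = λ (1 + ζ + .. + ζ^(c-1))`, `ζ^j ≡ 1`).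
(6) `u := y / λ`, `v u = 1`, `u = u₀ + δ` (`IsSH.res`): `v (g • u - u) < 1`.  So `v (g • y - c * y) < γ`.  By (2) `g • y = a₀ (n g • x) - a₀ 0`, `v (g • y - n g * y) ≤ γ ^ 2 < γ`.
    So `v ((n g - c : ℤ) : C) < 1`, so `p ∣ n g - c` (if `p ∤ m` then `v m = 1`: Bezout), so `ζ ^ n g = ζ ^ c`.
-/

set_option autoImplicit false

namespace Fermat.Agent.S56.Flat

open Fermat.Agent.S56.Font

variable {Γ : Type} [Group Γ] {C : Type} [Field C] [MulSemiringAction Γ C]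
  {Γ₀ : Type} [LinearOrderedCommGroupWithZero Γ₀] {v : Valuation C Γ₀}
  {X : Type} [AddCommGroup X] {α : Γ →* AddMonoid.End X} {H : Subring (X → C)}

/-- [TH1] -/
theorem IsEqOrder.val_add_sub (hH : IsEqOrder v α H) {x x' : X} {γ γ' : Γ₀}
    (hx : ∀ b ∈ H, v (b x - b 0) ≤ γ) (hx' : ∀ b ∈ H, v (b x' - b 0) ≤ γ') :
    ∀ a ∈ H, v (a (x + x') - a x - a x' + a 0) ≤ γ * γ' := by
  intro a ha
  obtain ⟨n, b, c, hb, hc, hbc⟩ := hH.comul a ha
  have e1 : a (x + x') - a x - a x' + a 0 = ∑ i, (b i x - b i 0) * (c i x' - c i 0) := by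
    have e0 : a 0 = ∑ i, b i 0 * c i 0 := by rw [← hbc, add_zero]
    have e2 : a x = ∑ i, b i x * c i 0 := by rw [← hbc, add_zero]
    have e3 : a x' = ∑ i, b i 0 * c i x' := by rw [← hbc, zero_add]
    rw [hbc, e0, e2, e3, ← Finset.sum_sub_distrib, ← Finset.sum_sub_distrib,
      ← Finset.sum_add_distrib]
    exact Finset.sum_congr rfl fun i _ => by ring
  rw [e1]
  refine Valuation.map_sum_le v fun i _ => ?_
  rw [map_mul]
  exact mul_le_mul' (hx _ (hb i)) (hx' _ (hc i))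

/-- [TH2] -/
theorem IsEqOrder.val_nsmul_sub (hH : IsEqOrder v α H) {x : X} {γ : Γ₀} (hγ : γ ≤ 1)
    (hx : ∀ b ∈ H, v (b x - b 0) ≤ γ) (m : ℕ) :
    (∀ b ∈ H, v (b (m • x) - b 0) ≤ γ) ∧
      ∀ a ∈ H, v (a (m • x) - a 0 - (m : C) * (a x - a 0)) ≤ γ ^ 2 := by
  have hγ2 : γ ^ 2 ≤ γ := by
    rw [pow_two]
    calc γ * γ ≤ γ * 1 := mul_le_mul' le_rfl hγ
      _ = γ := mul_one γ
  induction m with
  | zero =>
    refine ⟨fun b _ => ?_, fun a _ => ?_⟩
    · simp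
    · simp
  | succ m ih =>
    have h1 := hH.val_add_sub ih.1 hx
    rw [← pow_two] at h1
    refine ⟨fun b hb => ?_, fun a ha => ?_⟩
    · have e : b ((m + 1) • x) - b 0 = (b (m • x + x) - b (m • x) - b x + b 0)
          + ((b (m • x) - b 0) + (b x - b 0)) := by
        rw [succ_nsmul]; ring
      rw [e]
      exact Valuation.map_add_le v ((h1 b hb).trans hγ2)
        (Valuation.map_add_le v (ih.1 b hb) (hx b hb))
    · have e : a ((m + 1) • x) - a 0 - ((m + 1 : ℕ) : C) * (a x - a 0) =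
          (a (m • x + x) - a (m • x) - a x + a 0)
            + (a (m • x) - a 0 - (m : C) * (a x - a 0)) := by
        rw [succ_nsmul]; push_cast; ring
      rw [e]
      exact Valuation.map_add_le v (h1 a ha) (ih.2 a ha)

private theorem val_le_one_of_pow_eq_one (v : Valuation C Γ₀) {μ : C} {n : ℕ} (hn : n ≠ 0)
    (hμ : μ ^ n = 1) : v μ ≤ 1 := by
  by_contra h
  have h1 : 1 < v μ ^ n := one_lt_pow₀ (not_le.1 h) hn
  rw [← map_pow, hμ, map_one] at h1
  exact lt_irrefl _ h1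

private theorem val_geom_le_one (v : Valuation C Γ₀) {μ : C} (hμ : v μ ≤ 1) (j : ℕ) :
    v (∑ i ∈ Finset.range j, μ ^ i) ≤ 1 := by
  refine Valuation.map_sum_le v fun i _ => ?_
  rw [map_pow]
  exact pow_le_one₀ zero_le hμ

private theorem val_pow_sub_one_le' (v : Valuation C Γ₀) {μ : C} (hμ : v μ ≤ 1) (j : ℕ) :
    v (μ ^ j - 1) ≤ v (μ - 1) := by
  rw [← mul_geom_sum, map_mul]
  calc v (μ - 1) * v (∑ i ∈ Finset.range j, μ ^ i) ≤ v (μ - 1) * 1 :=
        mul_le_mul' le_rfl (val_geom_le_one v hμ j)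
    _ = v (μ - 1) := mul_one _

private theorem isPrimitiveRoot_of_prime {p : ℕ} (hp : p.Prime) {ζ : C} (hζ1 : ζ ≠ 1)
    (hζ : ζ ^ p = 1) : IsPrimitiveRoot ζ p := by
  have h1 : orderOf ζ ∣ p := orderOf_dvd_of_pow_eq_one hζ
  rcases (Nat.dvd_prime hp).1 h1 with h | h
  · exact absurd (orderOf_eq_one_iff.1 h) hζ1
  · rw [← h]
    exact IsPrimitiveRoot.orderOf ζ

/-- [TH3] -/
theorem val_zeta_sub_one_pow {p : ℕ} (hp : p.Prime) (v : Valuation C Γ₀) {ζ : C} (hζ1 : ζ ≠ 1)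
    (hζ : ζ ^ p = 1) : v (ζ - 1) ^ (p - 1) = v (p : C) := by
  have hprim := isPrimitiveRoot_of_prime hp hζ1 hζ
  have h1 : (p : C) = ∏ μ ∈ primitiveRoots p C, (1 - μ) := by
    have h2 := Polynomial.cyclotomic_eq_prod_X_sub_primitiveRoots hprim
    have h3 := congrArg (Polynomial.eval 1) h2
    rw [Polynomial.eval_one_cyclotomic_prime (hn := ⟨hp⟩), Polynomial.eval_prod] at h3
    simpa using h3
  have h4 : ∀ μ ∈ primitiveRoots p C, v (1 - μ) = v (ζ - 1) := by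
    intro μ hμ
    have hμp : IsPrimitiveRoot μ p := (mem_primitiveRoots hp.pos).1 hμ
    have : NeZero p := ⟨hp.ne_zero⟩
    obtain ⟨i, -, hi⟩ := hprim.eq_pow_of_pow_eq_one hμp.pow_eq_one
    obtain ⟨j, -, hj⟩ := hμp.eq_pow_of_pow_eq_one hζ
    rw [Valuation.map_sub_swap]
    refine le_antisymm ?_ ?_
    · rw [← hi]
      exact val_pow_sub_one_le' v (val_le_one_of_pow_eq_one v hp.ne_zero hζ) i
    · rw [← hj]
      exact val_pow_sub_one_le' v (val_le_one_of_pow_eq_one v hp.ne_zero hμp.pow_eq_one) j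
  rw [h1, map_prod, Finset.prod_congr rfl h4, Finset.prod_const, hprim.card_primitiveRoots,
    Nat.totient_prime hp]

/-- [TH3] -/
theorem val_zeta_pow_sub {p : ℕ} (hp : p.Prime) (v : Valuation C Γ₀) (hvp : v (p : C) < 1) {ζ : C}
    (hζ1 : ζ ≠ 1) (hζ : ζ ^ p = 1) (c : ℕ) :
    v ((ζ ^ c - 1) - (c : C) * (ζ - 1)) < v (ζ - 1) := by
  have hζv : v ζ ≤ 1 := val_le_one_of_pow_eq_one v hp.ne_zero hζ
  have hl0 : v (ζ - 1) ≠ 0 := (Valuation.ne_zero_iff v).2 (sub_ne_zero.2 hζ1)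
  have hl1 : v (ζ - 1) < 1 := by
    by_contra h
    have h1 : 1 ≤ v (ζ - 1) ^ (p - 1) := one_le_pow₀ (not_lt.1 h)
    rw [val_zeta_sub_one_pow hp v hζ1 hζ] at h1
    exact absurd hvp (not_lt.2 h1)
  have e : (ζ ^ c - 1) - (c : C) * (ζ - 1) = (ζ - 1) * ∑ i ∈ Finset.range c, (ζ ^ i - 1) := by
    rw [Finset.sum_sub_distrib, mul_sub (ζ - 1), mul_geom_sum]
    simp
    ring
  rw [e, map_mul]
  have h2 : v (∑ i ∈ Finset.range c, (ζ ^ i - 1)) < 1 :=
    Valuation.map_sum_lt v one_ne_zero fun i _ => (val_pow_sub_one_le' v hζv i).trans_lt hl1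
  calc v (ζ - 1) * v (∑ i ∈ Finset.range c, (ζ ^ i - 1)) < v (ζ - 1) * 1 :=
        mul_lt_mul_of_pos_left h2 (zero_lt_iff.2 hl0)
    _ = v (ζ - 1) := mul_one _

private theorem val_intCast_le_one (v : Valuation C Γ₀) (m : ℤ) : v (m : C) ≤ 1 := by
  have hn : ∀ n : ℕ, v (n : C) ≤ 1 := by
    intro n
    induction n with
    | zero => simp
    | succ n ih =>
      rw [Nat.cast_succ]
      exact Valuation.map_add_le v ih (by simp)
  obtain ⟨n, rfl | rfl⟩ := m.eq_nat_or_neg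
  · simpa using hn n
  · simpa using hn n

private theorem dvd_of_val_intCast_lt_one {p : ℕ} (hp : p.Prime) (v : Valuation C Γ₀)
    (hvp : v (p : C) < 1) {m : ℤ} (hm : v (m : C) < 1) : (p : ℤ) ∣ m := by
  by_contra h
  have hcop : IsCoprime (p : ℤ) m :=
    ((Nat.prime_iff_prime_int.1 hp).coprime_iff_not_dvd).2 h
  obtain ⟨a, b, hab⟩ := hcop
  have h1 : (a : C) * (p : C) + (b : C) * (m : C) = 1 := by exact_mod_cast congrArg (Int.cast : ℤ → C) hab
  have h2 : v ((a : C) * (p : C) + (b : C) * (m : C)) < 1 := by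
    refine Valuation.map_add_lt v ?_ ?_
    · rw [map_mul, mul_comm]
      exact mul_lt_one_of_lt_of_le hvp (val_intCast_le_one v a)
    · rw [map_mul, mul_comm]
      exact mul_lt_one_of_lt_of_le hm (val_intCast_le_one v b)
  rw [h1, map_one] at h2
  exact lt_irrefl _ h2

/-- `X0` as a subgroup. -/
private def X0sub (hH : IsEqOrder v α H) : AddSubgroup X where
  carrier := X0 v H
  add_mem' := fun hx hy => hH.add_mem_X0 hx hy
  zero_mem' := zero_mem_X0 v H
  neg_mem' := fun hx => hH.neg_mem_X0 hx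

/-- **[F-TH]** -/
theorem HasFlat.smul_zeta_eq [Finite X] {p : ℕ} (hp : p.Prime) (hp2 : p ≠ 2)
    (hSH : IsSH Γ v (p : C))
    (harch : ∀ g : Γ₀, g < 1 → ∀ d : Γ₀, d ≠ 0 → ∃ n : ℕ, g ^ n ≤ d)
    (hX : ∀ x : X, p • x = 0) (h : HasFlat v α) {x : X} (hx : x ≠ 0) (n : Γ → ℕ)
    (hn : ∀ g, α g x = n g • x) (hne : ∃ g, α g x ≠ x) {ζ : C} (hζ1 : ζ ≠ 1) (hζ : ζ ^ p = 1)
    (g : Γ) : g • ζ = ζ ^ n g := by
  classical
  have := Fintype.ofFinite X
  obtain ⟨H, hH⟩ := h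
  have hvp : v (p : C) < 1 := hSH.lt_one
  have hvp0 : v (p : C) ≠ 0 := (Valuation.ne_zero_iff v).2 hSH.ne_zero
  -- (1)
  have hx0 : x ∈ X0 v H := by
    obtain ⟨g₀, hg₀⟩ := hne
    have h1 : α g₀ x - x ∈ X0sub hH := hH.sub_mem_X0 hSH g₀ x
    have h2 : α g₀ x - x = ((n g₀ : ℤ) - 1) • x := by
      rw [hn, sub_smul, one_smul, natCast_zsmul]
    have h3 : ¬ (p : ℤ) ∣ (n g₀ : ℤ) - 1 := by
      rintro ⟨k, hk⟩
      apply hg₀
      rw [← sub_eq_zero, h2, hk, mul_comm, mul_smul, natCast_zsmul, hX, smul_zero]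
    obtain ⟨a, b, hab⟩ := ((Nat.prime_iff_prime_int.1 hp).coprime_iff_not_dvd).2 h3
    have h4 : x = b • (α g₀ x - x) := by
      rw [h2, ← mul_smul]
      have : b * ((n g₀ : ℤ) - 1) = 1 - a * p := by linarith
      rw [this, sub_smul, one_smul, mul_smul, natCast_zsmul, hX, smul_zero, sub_zero]
    rw [h4]
    exact (X0sub hH).zsmul_mem h1 b
  -- (3)
  obtain ⟨s, hsH, hs⟩ := hH.fg
  obtain ⟨a₁, ha₁, ha₁x⟩ := hH.sep x 0 hx
  have hsne : s.Nonempty := by
    by_contra hemp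
    rw [Finset.not_nonempty_iff_eq_empty] at hemp
    obtain ⟨c, -, hc⟩ := hs a₁ ha₁
    rw [hemp, Finset.sum_empty] at hc
    rw [hc] at ha₁x
    exact ha₁x rfl
  obtain ⟨a₀, ha₀s, hmax⟩ := Finset.exists_max_image s (fun b => v (b x - b 0)) hsne
  have ha₀ : a₀ ∈ H := hsH a₀ ha₀s
  set y : C := a₀ x - a₀ 0 with hy
  have hγle : ∀ a ∈ H, v (a x - a 0) ≤ v y := by
    intro a ha
    obtain ⟨c, hc, hac⟩ := hs a ha
    have e : a x - a 0 = ∑ b ∈ s, c b * (b x - b 0) := by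
      rw [hac]
      simp only [Finset.sum_apply, Pi.smul_apply, smul_eq_mul]
      rw [← Finset.sum_sub_distrib]
      exact Finset.sum_congr rfl fun b _ => by ring
    rw [e]
    refine Valuation.map_sum_le v fun b hb => ?_
    rw [map_mul]
    calc v (c b) * v (b x - b 0) ≤ 1 * v y := mul_le_mul' (hc b).2 (hmax b hb)
      _ = v y := one_mul _
  have hy0 : v y ≠ 0 := by
    intro h0
    have h1 := hγle a₁ ha₁
    rw [h0, le_zero_iff, map_eq_zero, sub_eq_zero] at h1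
    exact ha₁x h1
  have hyne : y ≠ 0 := (Valuation.ne_zero_iff v).1 hy0
  have hy1 : v y < 1 := hx0 a₀ ha₀
  have h3 : v (p : C) ≤ v y ^ (p - 1) := by
    by_contra hlt
    exact hx (eq_of_near hH.fn hp hX hvp0 harch (τ := v y) hy0 (not_le.1 hlt) hγle)
  -- the action on `y`
  have hgy : ∀ g : Γ, g • y = a₀ (n g • x) - a₀ 0 := by
    intro g
    rw [hy, smul_sub, ← hH.eqv a₀ ha₀, ← hH.eqv a₀ ha₀, hn, map_zero]
  -- (4)
  have h4 : v y ^ (p - 1) ≤ v (p : C) := by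
    have hsub : orbF hSH y ⊆ (Finset.Ico 1 p).image (fun m => a₀ (m • x) - a₀ 0) := by
      intro z hz
      obtain ⟨g, rfl⟩ := (mem_orbF hSH).1 hz
      rw [hgy g, Finset.mem_image]
      have hmod : n g • x = (n g % p) • x := by
        conv_lhs => rw [← Nat.mod_add_div (n g) p]
        rw [add_smul, mul_smul, hX, add_zero]
      refine ⟨n g % p, Finset.mem_Ico.2 ⟨?_, Nat.mod_lt _ hp.pos⟩, by rw [hmod]⟩
      rw [Nat.one_le_iff_ne_zero]
      intro h0
      rw [h0, zero_smul, ← hn] at hmod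
      have h5 : α g⁻¹ (α g x) = x := by
        have h6 : (α g⁻¹ * α g) x = x := by
          rw [← map_mul, inv_mul_cancel, map_one]
          rfl
        exact h6
      rw [hmod, map_zero] at h5
      exact hx h5.symm
    have hcard : (orbF hSH y).card ≤ p - 1 := by
      refine (Finset.card_le_card hsub).trans (Finset.card_image_le.trans ?_)
      simp
    have hcard0 : (orbF hSH y).card ≠ 0 :=
      Finset.card_ne_zero_of_mem (self_mem_orbF hSH y)
    have hN := val_prod_orbF hSH y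
    rw [← card_orbF hSH y] at hN
    have hN1 : v (∏ z ∈ orbF hSH y, z) < 1 := by
      rw [hN]
      exact pow_lt_one₀ zero_le hy1 hcard0
    have hN2 := val_le_of_lt_one hSH (fix0_prod_orbF hSH y) hN1
    rw [hN] at hN2
    exact (pow_le_pow_of_le_one zero_le hy1.le hcard).trans hN2
  have h5 : v y ^ (p - 1) = v (p : C) := le_antisymm h4 h3
  -- (5)
  set lam : C := ζ - 1 with hlam
  have hlamv : v lam = v y := val_eq_of_pow hSH (val_zeta_sub_one_pow hp v hζ1 hζ) h5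
  have hlam0 : lam ≠ 0 := sub_ne_zero.2 hζ1
  have hprim := isPrimitiveRoot_of_prime hp hζ1 hζ
  have : NeZero p := ⟨hp.ne_zero⟩
  obtain ⟨c, -, hc⟩ := hprim.eq_pow_of_pow_eq_one (ξ := g • ζ) (by rw [← smul_pow', hζ, smul_one])
  have hglam : g • lam = ζ ^ c - 1 := by rw [hlam, smul_sub, smul_one, hc]
  have h6 : v (g • lam - (c : C) * lam) < v y := by
    rw [hglam, ← hlamv]
    exact val_zeta_pow_sub hp v hvp hζ1 hζ c
  -- (6)
  set u : C := y / lam with hu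
  have huv : v u = 1 := by rw [hu, map_div₀, hlamv, div_self hy0]
  have hyu : y = u * lam := by rw [hu, div_mul_cancel₀ _ hlam0]
  have hgu : v (g • u - u) < 1 := by
    obtain ⟨w, hw, hlt⟩ := hSH.res u huv.le
    have e3 : g • u - u = g • (u - w) - (u - w) := by
      rw [smul_sub, hw g]
      ring
    rw [e3]
    exact Valuation.map_sub_lt v (by rw [hSH.inv]; exact hlt) hlt
  have h7 : v (g • y - (c : C) * y) < v y := by
    have e : g • y - (c : C) * y = (g • u - u) * (g • lam) + u * (g • lam - (c : C) * lam) := by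
      rw [hyu, smul_mul']
      ring
    rw [e]
    refine Valuation.map_add_lt v ?_ ?_
    · rw [map_mul, hSH.inv, hlamv]
      calc v (g • u - u) * v y < 1 * v y := mul_lt_mul_of_pos_right hgu (zero_lt_iff.2 hy0)
        _ = v y := one_mul _
    · rw [map_mul, huv, one_mul]
      exact h6
  have h8 : v (g • y - (n g : C) * y) < v y := by
    rw [hgy g]
    refine ((hH.val_nsmul_sub hy1.le hγle (n g)).2 a₀ ha₀).trans_lt ?_
    rw [pow_two]
    calc v y * v y < 1 * v y := mul_lt_mul_of_pos_right hy1 (zero_lt_iff.2 hy0)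
      _ = v y := one_mul _
  have h9 : v ((((n g : ℤ) - (c : ℤ) : ℤ) : C)) < 1 := by
    have e : (((n g : ℤ) - (c : ℤ) : ℤ) : C) * y = (g • y - (c : C) * y) - (g • y - (n g : C) * y) := by
      push_cast
      ring
    have h10 : v ((((n g : ℤ) - (c : ℤ) : ℤ) : C) * y) < v y := by
      rw [e]
      exact Valuation.map_sub_lt v h7 h8
    rw [map_mul] at h10
    by_contra hge
    exact absurd (le_mul_of_one_le_left' (not_lt.1 hge)) (not_le.2 h10)
  have h10 := dvd_of_val_intCast_lt_one hp v hvp h9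
  have h11 : n g ≡ c [MOD p] := by
    rw [← Int.natCast_modEq_iff]
    exact (Int.modEq_iff_dvd.2 h10).symm
  rw [← hc, pow_eq_pow_mod (n g) hζ, pow_eq_pow_mod c hζ, h11]

end Fermat.Agent.S56.Flat
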