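import Fermat.Agent.S56.Flat.Quot

/-!
# S56 / Flat / Conn  [F-CONN] : the connected component.  `X⁰ = aug α` has no `Γ`-trivial subquotient.

`a (u + w) = ∑ b i u * c i w` (`comul`).
* `add_mem_X0` : `a (x + x') - a 0 = ∑ (b i x - b i 0) * c i x' + ∑ b i 0 * (c i x' - c i 0)`.
* `neg_mem_X0` : `a (-x) - a 0 = ∑ (b i 0 - b i x) * c i (-x)`   (`a 0 = a (x + -x)`, `a (-x) = a (0 + -x)`).
* `sub_mem_X0` : `a (g x - x) - a 0 = ∑ (g • β_i - β_i) * c i (-x)`, `β_i = b i x`; `β = β₀ + δ`, `β₀` fixed, `v δ < 1` (`IsSH.res`), `g • β - β = g • δ - δ` (`IsSH.inv`).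
* `eq_zero_of_fixed` : `x` fixed ⟹ `a x - a 0` is fixed (`eqv`; `α g 0 = 0`), of valuation `< 1`, so `≤ v p` (`Font.val_le_of_lt_one`).
  `Font.eq_of_near` with `τ = v p` (`(v p)^(p-1) < v p` as `p - 1 ≥ 2`, `0 < v p < 1`).
* `noTriv` : `Y` stable, `X'' = X ⧸ Y` with the induced action `α''`, `H''` ANY order on `X''` (F-QUOT).  `z ∈ aug α` ⟹ `φ z ∈ aug α'' ⊆ X0 v H''`;
  `(g - 1) z ∈ Y` ⟹ `φ z` fixed ⟹ `φ z = 0`.
-/

set_option autoImplicit false

namespace Fermat.Agent.S56.Flat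

open Fermat.Agent.S56.Font

variable {Γ : Type} [Group Γ] {C : Type} [Field C] [MulSemiringAction Γ C]
  {Γ₀ : Type} [LinearOrderedCommGroupWithZero Γ₀] {v : Valuation C Γ₀}
  {X : Type} [AddCommGroup X] {α : Γ →* AddMonoid.End X} {H : Subring (X → C)}

theorem zero_mem_X0 (v : Valuation C Γ₀) (H : Subring (X → C)) : (0 : X) ∈ X0 v H := by
  intro a _
  simp

theorem IsEqOrder.add_mem_X0 (hH : IsEqOrder v α H) {x x' : X} (hx : x ∈ X0 v H)
    (hx' : x' ∈ X0 v H) : x + x' ∈ X0 v H := by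
  intro a ha
  obtain ⟨n, b, c, hb, hc, hbc⟩ := hH.comul a ha
  have e1 : a (x + x') - a 0 =
      ∑ i, ((b i x - b i 0) * c i x' + b i 0 * (c i x' - c i 0)) := by
    have e0 : a 0 = ∑ i, b i 0 * c i 0 := by rw [← hbc, add_zero]
    rw [hbc, e0, ← Finset.sum_sub_distrib]
    exact Finset.sum_congr rfl fun i _ => by ring
  rw [e1]
  refine Valuation.map_sum_lt v one_ne_zero fun i _ => ?_
  refine Valuation.map_add_lt v ?_ ?_
  · rw [map_mul]
    exact mul_lt_one_of_lt_of_le (hx (b i) (hb i)) (hH.int _ (hc i) x')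
  · rw [map_mul, mul_comm]
    exact mul_lt_one_of_lt_of_le (hx' (c i) (hc i)) (hH.int _ (hb i) 0)

theorem IsEqOrder.neg_mem_X0 (hH : IsEqOrder v α H) {x : X} (hx : x ∈ X0 v H) : -x ∈ X0 v H := by
  intro a ha
  obtain ⟨n, b, c, hb, hc, hbc⟩ := hH.comul a ha
  have e1 : a (-x) - a 0 = ∑ i, (b i 0 - b i x) * c i (-x) := by
    have e0 : a 0 = ∑ i, b i x * c i (-x) := by rw [← hbc, add_neg_cancel]
    have e2 : a (-x) = ∑ i, b i 0 * c i (-x) := by rw [← hbc, zero_add]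
    rw [e2, e0, ← Finset.sum_sub_distrib]
    exact Finset.sum_congr rfl fun i _ => by ring
  rw [e1]
  refine Valuation.map_sum_lt v one_ne_zero fun i _ => ?_
  rw [map_mul, Valuation.map_sub_swap]
  exact mul_lt_one_of_lt_of_le (hx (b i) (hb i)) (hH.int _ (hc i) (-x))

theorem IsEqOrder.sub_mem_X0 {ϖ : C} (hSH : IsSH Γ v ϖ) (hH : IsEqOrder v α H) (g : Γ) (x : X) :
    α g x - x ∈ X0 v H := by
  intro a ha
  obtain ⟨n, b, c, hb, hc, hbc⟩ := hH.comul a ha
  have e1 : a (α g x - x) - a 0 = ∑ i, (g • b i x - b i x) * c i (-x) := by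
    have e0 : a 0 = ∑ i, b i x * c i (-x) := by rw [← hbc, add_neg_cancel]
    have e2 : a (α g x - x) = ∑ i, (g • b i x) * c i (-x) := by
      rw [sub_eq_add_neg, hbc]
      exact Finset.sum_congr rfl fun i _ => by rw [hH.eqv _ (hb i)]
    rw [e2, e0, ← Finset.sum_sub_distrib]
    exact Finset.sum_congr rfl fun i _ => by ring
  rw [e1]
  refine Valuation.map_sum_lt v one_ne_zero fun i _ => ?_
  rw [map_mul]
  refine mul_lt_one_of_lt_of_le ?_ (hH.int _ (hc i) (-x))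
  obtain ⟨y, hy, hlt⟩ := hSH.res (b i x) (hH.int _ (hb i) x)
  have e3 : g • b i x - b i x = g • (b i x - y) - (b i x - y) := by
    rw [smul_sub, hy g]
    ring
  rw [e3]
  exact Valuation.map_sub_lt v (by rw [hSH.inv]; exact hlt) hlt

theorem IsEqOrder.aug_le_X0 {ϖ : C} (hSH : IsSH Γ v ϖ) (hH : IsEqOrder v α H) :
    ∀ z ∈ aug α, z ∈ X0 v H := by
  intro z hz
  unfold aug at hz
  induction hz using AddSubgroup.closure_induction with
  | mem z hz =>
    obtain ⟨g, x, rfl⟩ := hz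
    exact hH.sub_mem_X0 hSH g x
  | zero => exact zero_mem_X0 v H
  | add x y _ _ hx hy => exact hH.add_mem_X0 hx hy
  | neg x _ hx => exact hH.neg_mem_X0 hx

theorem IsEqOrder.eq_zero_of_fixed [Finite X] {p : ℕ} (hp : p.Prime) (hp2 : p ≠ 2)
    (hSH : IsSH Γ v (p : C))
    (harch : ∀ g : Γ₀, g < 1 → ∀ d : Γ₀, d ≠ 0 → ∃ n : ℕ, g ^ n ≤ d)
    (hX : ∀ x : X, p • x = 0) (hH : IsEqOrder v α H) {x : X} (hx : x ∈ X0 v H)
    (hfix : ∀ g, α g x = x) : x = 0 := by
  have := Fintype.ofFinite X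
  have hp0 : v (p : C) ≠ 0 := (Valuation.ne_zero_iff v).2 hSH.ne_zero
  have hp3 : 1 < p - 1 := by
    have := hp.two_le
    omega
  refine eq_of_near hH.fn hp hX hp0 harch (τ := v (p : C)) hp0
    (pow_lt_self_of_lt_one₀ (zero_lt_iff.2 hp0) hSH.lt_one hp3) fun a ha => ?_
  refine val_le_of_lt_one hSH (fun g => ?_) (hx a ha)
  rw [smul_sub, ← hH.eqv a ha, ← hH.eqv a ha, hfix, map_zero]

/-- the action induced on the quotient by a stable subgroup. -/
private def quotAct (α : Γ →* AddMonoid.End X) (Y : AddSubgroup X)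
    (hY : ∀ g, ∀ y ∈ Y, α g y ∈ Y) : Γ →* AddMonoid.End (X ⧸ Y) where
  toFun g := QuotientAddGroup.map Y Y (α g) (fun y hy => hY g y hy)
  map_one' := by
    refine AddMonoidHom.ext fun x => ?_
    induction x using QuotientAddGroup.induction_on with
    | H x =>
      show ((α 1 x : X) : X ⧸ Y) = (x : X ⧸ Y)
      rw [map_one]
      rfl
  map_mul' g g' := by
    refine AddMonoidHom.ext fun x => ?_
    induction x using QuotientAddGroup.induction_on with
    | H x =>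
      show ((α (g * g') x : X) : X ⧸ Y) = ((α g (α g' x) : X) : X ⧸ Y)
      rw [map_mul]
      rfl

/-- **[F-CONN]** -/
theorem HasFlat.noTriv [CharZero C] [Finite X] {p : ℕ} (hp : p.Prime) (hp2 : p ≠ 2)
    (hSH : IsSH Γ v (p : C))
    (harch : ∀ g : Γ₀, g < 1 → ∀ d : Γ₀, d ≠ 0 → ∃ n : ℕ, g ^ n ≤ d)
    (hX : ∀ x : X, p • x = 0) (h : HasFlat v α) : NoTriv α := by
  intro Y hY z hz hzY
  set φ : X →+ X ⧸ Y := QuotientAddGroup.mk' Y with hφ
  have hφs : Function.Surjective φ := QuotientAddGroup.mk'_surjective Y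
  have hα : ∀ g x, φ (α g x) = quotAct α Y hY g (φ x) := fun g x => rfl
  obtain ⟨H'', hH''⟩ := HasFlat.of_surjective φ hφs hα h
  have hX'' : ∀ x : X ⧸ Y, p • x = 0 := by
    intro x
    obtain ⟨x, rfl⟩ := hφs x
    rw [← map_nsmul, hX, map_zero]
  have h0 : ∀ w ∈ aug α, φ w ∈ aug (quotAct α Y hY) := by
    intro w hw
    unfold aug at hw
    induction hw using AddSubgroup.closure_induction with
    | mem z hz =>
      obtain ⟨g, x, rfl⟩ := hz
      rw [map_sub, hα]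
      exact sub_mem_aug _ g (φ x)
    | zero => rw [map_zero]; exact zero_mem _
    | add x y _ _ hx hy => rw [map_add]; exact add_mem hx hy
    | neg x _ hx => rw [map_neg]; exact neg_mem hx
  have h1 := h0 z hz
  have h2 : ∀ g, quotAct α Y hY g (φ z) = φ z := by
    intro g
    rw [← hα, ← sub_eq_zero, ← map_sub]
    exact (QuotientAddGroup.eq_zero_iff _).2 (hzY g)
  have h3 := hH''.eq_zero_of_fixed hp hp2 hSH harch hX'' (hH''.aug_le_X0 hSH _ h1) h2
  exact (QuotientAddGroup.eq_zero_iff _).1 h3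

end Fermat.Agent.S56.Flat
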