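import Fermat.Agent.S56.Font.FL
import Fermat.Agent.S56.Font.LT.Sub

/-!
# S56 / Flat / Defs : equivariant Hopf orders ("flat data") over `O_{K₀}`

Setting of `Font/LT` : a group `Γ` acts on the valued field `(C, v)`, `K₀ = C^Γ`, `O₀ = O0 Γ v = {r ∈ K₀ | v r ≤ 1}`
(model: `Γ` = inertia group at a place `A | p` of `ℚ̄`, `C = ℚ̄`, `v = A.valuation`).
`X` a finite abelian group with an additive action `α : Γ →* AddMonoid.End X` (EXPLICIT hom: no type class, so that
sub/quotients/products/matrix actions never fight with instances).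

* `IsEqOrder v α H` : `H` is a subring of `X → C` of integral valued, `Γ`-equivariant functions, an `O₀`-module of finite
  type, spanning all functions over `C`, stable under comultiplication.
* `HasFlat v α` : such an `H` exists.
* `X0 v H` : the "connected component" `{x | ∀ a ∈ H, v (a x - a 0) < 1}`.
* `aug α` : the augmentation subgroup `∑ (g - 1) X`;  `NoTriv α` : `aug α` has no `Γ`-trivial subquotient, in the form
  `Y` stable, `z ∈ aug α`, `(g - 1) z ∈ Y` for all `g` ⟹ `z ∈ Y`.
-/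

set_option autoImplicit false

namespace Fermat.Agent.S56.Flat

open Fermat.Agent.S56.Font

variable {Γ : Type} [Group Γ] {C : Type} [Field C] [MulSemiringAction Γ C]
  {Γ₀ : Type} [LinearOrderedCommGroupWithZero Γ₀]

/-- an equivariant Hopf order. -/
structure IsEqOrder {X : Type} [AddCommGroup X] (v : Valuation C Γ₀) (α : Γ →* AddMonoid.End X)
    (H : Subring (X → C)) : Prop where
  int : ∀ a ∈ H, ∀ x, v (a x) ≤ 1
  span : Submodule.span C (H : Set (X → C)) = ⊤
  comul : ∀ a ∈ H, ∃ (n : ℕ) (b c : Fin n → X → C),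
    (∀ i, b i ∈ H) ∧ (∀ i, c i ∈ H) ∧ ∀ x y, a (x + y) = ∑ i, b i x * c i y
  eqv : ∀ a ∈ H, ∀ (g : Γ) (x : X), a (α g x) = g • a x
  smul : ∀ r ∈ O0 Γ v, ∀ a ∈ H, r • a ∈ H
  fg : ∃ s : Finset (X → C), (∀ b ∈ s, b ∈ H) ∧
    ∀ a ∈ H, ∃ c : (X → C) → C, (∀ b, c b ∈ O0 Γ v) ∧ a = ∑ b ∈ s, c b • b

/-- `X` (with the action `α`) has an equivariant Hopf order. -/
def HasFlat {X : Type} [AddCommGroup X] (v : Valuation C Γ₀) (α : Γ →* AddMonoid.End X) : Prop :=
  ∃ H : Subring (X → C), IsEqOrder v α H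

/-- the points reducing to `0`. -/
def X0 {X : Type} [AddCommGroup X] (v : Valuation C Γ₀) (H : Subring (X → C)) : Set X :=
  {x | ∀ a ∈ H, v (a x - a 0) < 1}

/-- the augmentation subgroup. -/
def aug {X : Type} [AddCommGroup X] (α : Γ →* AddMonoid.End X) : AddSubgroup X :=
  AddSubgroup.closure {z | ∃ (g : Γ) (x : X), z = α g x - x}

/-- `aug α` has no `Γ`-trivial subquotient. -/
def NoTriv {X : Type} [AddCommGroup X] (α : Γ →* AddMonoid.End X) : Prop :=
  ∀ Y : AddSubgroup X, (∀ g, ∀ y ∈ Y, α g y ∈ Y) → ∀ z ∈ aug α, (∀ g, α g z - z ∈ Y) → z ∈ Y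

variable {X : Type} [AddCommGroup X] {v : Valuation C Γ₀} {α : Γ →* AddMonoid.End X}
  {H : Subring (X → C)}

theorem sub_mem_aug (α : Γ →* AddMonoid.End X) (g : Γ) (x : X) : α g x - x ∈ aug α :=
  AddSubgroup.subset_closure ⟨g, x, rfl⟩

/-- separation of points. -/
theorem IsEqOrder.sep (hH : IsEqOrder v α H) (x x' : X) (hne : x ≠ x') : ∃ a ∈ H, a x ≠ a x' := by
  classical
  by_contra hcon
  push Not at hcon
  have h1 : ∀ f ∈ Submodule.span C (H : Set (X → C)), f x = f x' := by
    intro f hf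
    induction hf using Submodule.span_induction with
    | mem a ha => exact hcon a ha
    | zero => rfl
    | add a b _ _ ha hb => rw [Pi.add_apply, Pi.add_apply, ha, hb]
    | smul r a _ ha => rw [Pi.smul_apply, Pi.smul_apply, ha]
  have h2 := h1 (Pi.single x 1) (by rw [hH.span]; trivial)
  rw [Pi.single_eq_same, Pi.single_eq_of_ne (Ne.symm hne)] at h2
  exact one_ne_zero h2

/-- an equivariant order is a function order in the sense of `Font/FL.lean`. -/
theorem IsEqOrder.fn (hH : IsEqOrder v α H) : IsFnOrder v H where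
  int := hH.int
  sep := hH.sep
  comul := hH.comul

end Fermat.Agent.S56.Flat
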