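import Fermat.Agent.S56.Font.KumOK
import Fermat.Agent.S56.Flat.Bridge
import Fermat.Agent.S56.TD.Coc
import Fermat.Agent.S56.Flat.FKAbs
import Fermat.Agent.S56.Loc.Min
import Fermat.Agent.S56.Loc.OrdNF

/-!
# S56 / Flat / FK : flatness as a filter of subgroups of inertia.

`A = primeLocalPlace p`, `Γ = IP p = ↥(inert p)` (a type, acting on `ℚbar`), `v = vP p = A.valuation`.
`FlatKer p M` : the subgroup `M ≤ Γ` contains the kernel of the action `α` of `Γ` on a finite abelian group `X` killed by `p` which carries a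
`Γ`-equivariant Hopf order (`Flat.HasFlat (vP p) α`, helper57's `Flat/Defs.lean`).   These `M` form a FILTER (`mono`, `inf` : product order), all of them are open, and they satisfy
Fontaine's bound in Kummer form (`Font.KumOK`) over every `K₀(π)`, `π^e = p`.
`Lfl rbar` : cocycles `c ∈ Z¹(D_p, ad⁰)` such that `rbar` and `c` are trivial on some `M` with `FlatKer p M`.  It is a `k`-subspace.
-/

set_option autoImplicit false

open ExtCitation

namespace Fermat.Agent.S56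

open CFT (levS levAll decomp Z1 B1 Qb)
open Font

/-- the inertia group at the distinguished place over `p`, as a type -/
abbrev IP (p : ℕ) [Fact p.Prime] : Type := ↥(inert (pPrime p))

/-- the valuation of the distinguished place over `p` -/
noncomputable abbrev vP (p : ℕ) [Fact p.Prime] :
    Valuation Qb (primeLocalPlace (pPrime p)).ValueGroup := (primeLocalPlace (pPrime p)).valuation

variable {p : ℕ} [Fact p.Prime]

theorem liesOver_pP : (primeLocalPlace (pPrime p)).LiesOverPrime p :=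
  liesOverPrime_primeLocalPlace (pPrime p)

theorem isSH_IP : IsSH (IP p) (vP p) ((p : ℕ) : Qb) :=
  isSH_inertia (Fact.out : p.Prime) liesOver_pP

/-- the value group has rank one -/
theorem harch_vP : ∀ g : (primeLocalPlace (pPrime p)).ValueGroup, g < 1 →
    ∀ d : (primeLocalPlace (pPrime p)).ValueGroup, d ≠ 0 → ∃ n : ℕ, g ^ n ≤ d :=
  Flat.arch_valuation (Fact.out : p.Prime) liesOver_pP

/-- `σ ∈ I_p` as an element of `D_p` -/
def IP.toD (s : IP p) : ↥(decomp (pPrime p)) := ⟨(s : GQ), inert_le_decomp (pPrime p) s.2⟩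

@[simp] theorem IP.coe_toD (s : IP p) : ((IP.toD s : ↥(decomp (pPrime p))) : GQ) = (s : GQ) := rfl

theorem IP.toD_mul (s t : IP p) : IP.toD (s * t) = IP.toD s * IP.toD t := rfl

variable (p) in
/-- `M` contains the kernel of the action of inertia on a "flat" module killed by `p` -/
def FlatKer (M : Subgroup (IP p)) : Prop :=
  ∃ (X : Type) (_ : AddCommGroup X) (_ : Finite X) (α : IP p →* AddMonoid.End X),
    Flat.HasFlat (vP p) α ∧ (∀ x : X, p • x = 0) ∧ α.ker ≤ M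

theorem FlatKer.mono {M M' : Subgroup (IP p)} (h : FlatKer p M) (hle : M ≤ M') : FlatKer p M' := by
  obtain ⟨X, i1, i2, α, h1, h2, h3⟩ := h
  exact ⟨X, i1, i2, α, h1, h2, h3.trans hle⟩

/-- [FK-INF] product order: `X = X₁ × X₂`, `α g (x₁, x₂) = (α₁ g x₁, α₂ g x₂)`, `H` = the set of finite sums `∑ (aᵢ ∘ fst) * (bᵢ ∘ snd)`, `aᵢ ∈ H₁`, `bᵢ ∈ H₂`
(the subring generated by the `a ∘ fst` and the `b ∘ snd`).  `int`, `eqv`, `smul`: clear.  `comul`: product of the two formulas (cf. `Font.IsFnOrder.coOrder₂` in `Font/FL.lean`).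
`fg`: the products of the generators.  `span`: `Pi.single (x₁, x₂) 1 = (Pi.single x₁ 1 ∘ fst) * (Pi.single x₂ 1 ∘ snd)` and bilinearity.  `ker α = ker α₁ ⊓ ker α₂`. -/
theorem FlatKer.inf {M M' : Subgroup (IP p)} (h : FlatKer p M) (h' : FlatKer p M') :
    FlatKer p (M ⊓ M') := by
  obtain ⟨X, i1, i2, α, h1, h2, h3⟩ := h
  obtain ⟨X', i1', i2', α', h1', h2', h3'⟩ := h'
  exact ⟨X × X', inferInstance, inferInstance, Flat.prodAct α α', h1.prod h1',
    fun x => Prod.ext (h2 x.1) (h2' x.2), (Flat.ker_prodAct_le α α').trans (inf_le_inf h3 h3')⟩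

/-- [FK-OPEN] `T` := the finitely many values `a_{x,x'} x`, where `a_{x,x'} ∈ H` separates `x ≠ x'` (`IsEqOrder.sep`): if `g` fixes `T` and `α g x ≠ x` then
`a (α g x) = g • a x = a x` for `a = a_{α g x, x}`: contradiction. -/
theorem FlatKer.isOpenIn {M : Subgroup (IP p)} (h : FlatKer p M) : IsOpenIn Qb M := by
  obtain ⟨X, i1, i2, α, h1, h2, h3⟩ := h
  exact Flat.isOpenIn_mono h1.isOpenIn_ker h3

theorem FlatKer.kumOK {M : Subgroup (IP p)} (h : FlatKer p M) {π : Qb} {e : ℕ}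
    (hπ : π ^ e = ((p : ℕ) : Qb)) : KumOK (vP p) p π M := by
  obtain ⟨X, i1, i2, α, h1, h2, h3⟩ := h
  intro y hy0 hyp hfix
  obtain ⟨r, hr0, hrf, hr⟩ := Flat.HasFlat.kum (Fact.out : p.Prime) isSH_IP harch_vP h2 h1 hπ hy0 hyp
    (fun g hg hα => hfix g ⟨hg, h3 hα⟩)
  exact ⟨r, hr0, hrf, by rwa [← mul_pow]⟩

variable {k : Type} [Field k]

/-- **[BRIDGE]** -/
theorem flatKer_of_isFlatAt [Finite k] [CharP k p] (ρ₁ : GaloisRepAdic (DualNumber k))
    (r₁ : GQ →* M2 (DualNumber k)) (hm : S53.HasMatrix ρ₁ r₁) (hfl : ρ₁.IsFlatAt p) :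
    FlatKer p ((r₁.comp (inert (pPrime p)).subtype).ker) := by
  classical
  have : Finite (DualNumber k) := inferInstanceAs (Finite (k × k))
  have hfl' := Flat.hasFlat_matAct (Fact.out : p.Prime) liesOver_pP ρ₁ r₁ hm hfl
  have hp0 : ((p : ℕ) : DualNumber k) = 0 := by
    apply TrivSqZeroExt.ext
    · rw [TrivSqZeroExt.fst_natCast, CharP.cast_eq_zero, TrivSqZeroExt.fst_zero]
    · rw [TrivSqZeroExt.snd_natCast, TrivSqZeroExt.snd_zero]
  refine ⟨Fin 2 → DualNumber k, inferInstance, inferInstance,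
    Flat.matAct (inert (pPrime p)) r₁, hfl', fun x => ?_, fun g hg => ?_⟩
  · funext i
    rw [Pi.smul_apply, nsmul_eq_mul, hp0, zero_mul, Pi.zero_apply]
  · rw [MonoidHom.mem_ker] at hg ⊢
    show r₁ (g : GQ) = 1
    refine Matrix.ext fun i j => ?_
    have h1 := congrArg (fun f : AddMonoid.End (Fin 2 → DualNumber k) => f (Pi.single j 1) i) hg
    simpa [Matrix.one_apply, Pi.single_apply, eq_comm] using h1

/-- `rbar` and `c` are trivial on a "flat" subgroup of inertia -/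
def IsFl (p : ℕ) [Fact p.Prime] (rbar : GQ →* M2 k) (c : ↥(decomp (pPrime p)) → sl2 k) : Prop :=
  ∃ M : Subgroup (IP p), FlatKer p M ∧ ∀ s ∈ M, rbar (s : GQ) = 1 ∧ c (IP.toD s) = 0

/-- cocycles on `D_p` which are, together with `rbar`, trivial on a "flat" subgroup of inertia (and `0`) -/
noncomputable def Lfl (p : ℕ) [Fact p.Prime] (rbar : GQ →* M2 k) :
    Submodule k (↥(decomp (pPrime p)) → sl2 k) where
  carrier := {c | c = 0 ∨ (c ∈ Z1loc (adRep rbar) (pPrime p) ∧ IsFl p rbar c)}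
  add_mem' := by
    rintro a b (rfl | ⟨ha, M, hM, h⟩) hb
    · rwa [zero_add]
    · rcases hb with rfl | ⟨hb, M', hM', h'⟩
      · rw [add_zero]; exact Or.inr ⟨ha, M, hM, h⟩
      · exact Or.inr ⟨add_mem ha hb, M ⊓ M', hM.inf hM', fun s hs =>
          ⟨(h s hs.1).1, by rw [Pi.add_apply, (h s hs.1).2, (h' s hs.2).2, add_zero]⟩⟩
  zero_mem' := Or.inl rfl
  smul_mem' := by
    rintro t a (rfl | ⟨ha, M, hM, h⟩)
    · exact Or.inl (smul_zero t)
    · exact Or.inr ⟨Submodule.smul_mem _ t ha, M, hM, fun s hs =>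
        ⟨(h s hs).1, by rw [Pi.smul_apply, (h s hs).2, smul_zero]⟩⟩

theorem Lfl_le_Z1loc (rbar : GQ →* M2 k) : Lfl p rbar ≤ Z1loc (adRep rbar) (pPrime p) := by
  rintro c (rfl | h)
  · exact zero_mem _
  · exact h.1

/-- two elements of `Lfl` are trivial on a common flat subgroup -/
theorem exists_common_flatKer {rbar : GQ →* M2 k} {c c' : ↥(decomp (pPrime p)) → sl2 k}
    (hc : IsFl p rbar c) (hc' : IsFl p rbar c') :
    ∃ M : Subgroup (IP p), FlatKer p M ∧
      ∀ s ∈ M, rbar (s : GQ) = 1 ∧ c (IP.toD s) = 0 ∧ c' (IP.toD s) = 0 := by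
  obtain ⟨M, hM, h⟩ := hc
  obtain ⟨M', hM', h'⟩ := hc'
  exact ⟨M ⊓ M', hM.inf hM', fun s hs => ⟨(h s hs.1).1, (h s hs.1).2, (h' s hs.2).2⟩⟩

/-- [FL-MEM] the class of a flat lift lies in `Lfl`: `M = ker (r₁|_I)`; `r₁ s = 1` gives `rbar s = 1` (`IsLift`) and `cocM r₁ s = 0`.
Continuity: `r₁` is trivial on a level (`ρ₁` is continuous and `k[ε]` is finite: see how `Asm`/`TD` get `coc_mem_Z1`); if this is awkward add the hypothesis
`hcont₁ : GaloisFactorsThroughFiniteLevel r₁`. -/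
theorem resLoc_coc_mem_Lfl [Finite k] [CharP k p] (h2 : (2 : k) ≠ 0) (rbar : GQ →* M2 k)
    (ρ₁ : GaloisRepAdic (DualNumber k)) (r₁ : GQ →* M2 (DualNumber k))
    (hm : S53.HasMatrix ρ₁ r₁) (hl : IsLift rbar r₁) (hfl : ρ₁.IsFlatAt p) :
    resLoc k (pPrime p) (coc h2 r₁) ∈ Lfl p rbar := by
  obtain ⟨L, hLfin, hL⟩ := (matCont_dualNumber_iff r₁).1 hm.matCont
  refine Or.inr ⟨resLoc_mem_Z1loc' _ (coc_mem_Z1 h2 levAll hl ?_) _,
    (r₁.comp (inert (pPrime p)).subtype).ker, flatKer_of_isFlatAt ρ₁ r₁ hm hfl, fun s hs => ?_⟩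
  · refine ⟨(IntermediateField.normalClosure ℚ L Qb).fixingSubgroup,
      ⟨_, normalClosure.is_finiteDimensional ℚ L Qb, normalClosure.normal ℚ L Qb, rfl⟩,
      fun s hs => hL s (fun x hx => ?_)⟩
    exact hs ⟨x, IntermediateField.le_normalClosure L hx⟩
  · have h1 : r₁ (s : GQ) = 1 := hs
    refine ⟨by rw [← hl, h1, map_fst_one], ?_⟩
    rw [resLoc_apply, IP.coe_toD, coc, cocM, h1, map_snd_one, zero_mul, map_zero]

/-- [FL-B1] if there is a flat subgroup on which `rbar` is trivial, the coboundaries lie in `Lfl` -/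
theorem B1loc_le_Lfl (rbar : GQ →* M2 k) (hcont : GaloisFactorsThroughFiniteLevel rbar)
    {M : Subgroup (IP p)} (hM : FlatKer p M) (h : ∀ s ∈ M, rbar (s : GQ) = 1) :
    B1loc (adRep rbar) (pPrime p) ≤ Lfl p rbar := by
  intro c hc
  refine Or.inr ⟨B1loc_le_Z1loc _ (isSmooth_adRep rbar hcont) _ hc, M, hM, fun s hs =>
    ⟨h s hs, ?_⟩⟩
  obtain ⟨w, rfl⟩ := hc
  have h1 : rbar (s : GQ) = 1 := h s hs
  have h2 : rbar (s : GQ)⁻¹ = 1 := by
    have := rbar_mul_inv rbar (s : GQ)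
    rwa [h1, one_mul] at this
  apply Subtype.ext
  rw [CFT.d01_apply]
  show rbar (s : GQ) * (w : M2 k) * rbar (s : GQ)⁻¹ - (w : M2 k) = 0
  rw [h1, h2, one_mul, mul_one, sub_self]

end Fermat.Agent.S56
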