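import Fermat.Agent.S56.Flat.Defs

/-!
# S56 / Flat / QuotAux : two lemmas of linear algebra over `K₀ = C^Γ`, `O₀ = O0 Γ v`.

[F-Q1] (Artin) equivariant functions which are linearly independent over `K₀` are linearly independent over `C`.
  Proof.  Take a non trivial relation `∑ c i • e i = 0` with support of minimal cardinality, normalised by `c i₀ = 1`.
  For `g : Γ`: evaluate at `α g⁻¹ x` and apply `g`: `∑ (g • c i) • e i = 0` (`α g (α g⁻¹ x) = x`).  The difference has a
  smaller support (it vanishes at `i₀`), so it is trivial: all `c i` are fixed.  `hind` gives `c = 0`, but `c i₀ = 1`.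
[F-Q2] (valuation rings: finitely generated torsion free ⟹ free) every finite family `s` of vectors contains a subfamily `t`,
  linearly independent over `K₀`, whose `O₀`-span contains `s`.
  Proof.  Induction on `s.card`.  If `s` is not `K₀`-independent take a relation `∑ c b • b = 0`, `c b` fixed, not all `0` on `s`,
  and `b₀ ∈ s` with `v (c b₀)` maximal (`Finset.exists_max_image`): `b₀ = ∑_{b ≠ b₀} (- c b / c b₀) • b`, coefficients in `O₀`.
  Apply the induction hypothesis to `s.erase b₀` and substitute.
-/

set_option autoImplicit false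

namespace Fermat.Agent.S56.Flat

open Fermat.Agent.S56.Font

variable {Γ : Type} [Group Γ] {C : Type} [Field C] [MulSemiringAction Γ C]
  {Γ₀ : Type} [LinearOrderedCommGroupWithZero Γ₀]

theorem act_act_inv {X : Type} [AddCommGroup X] (α : Γ →* AddMonoid.End X) (g : Γ) (x : X) :
    α g (α g⁻¹ x) = x := by
  have h : α g * α g⁻¹ = 1 := by rw [← map_mul, mul_inv_cancel, map_one]
  exact congrArg (fun f : AddMonoid.End X => f x) h

theorem act_inv_act {X : Type} [AddCommGroup X] (α : Γ →* AddMonoid.End X) (g : Γ) (x : X) :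
    α g⁻¹ (α g x) = x := by
  have h : α g⁻¹ * α g = 1 := by rw [← map_mul, inv_mul_cancel, map_one]
  exact congrArg (fun f : AddMonoid.End X => f x) h

/-- **[F-Q1]** -/
theorem eq_zero_of_sum_smul_eq_zero {X : Type} [AddCommGroup X] (α : Γ →* AddMonoid.End X)
    {ι : Type} [Fintype ι] (e : ι → X → C) (he : ∀ i g x, e i (α g x) = g • e i x)
    (hind : ∀ c : ι → C, (∀ i, Fix0 Γ (c i)) → ∑ i, c i • e i = 0 → ∀ i, c i = 0)
    (c : ι → C) (hc : ∑ i, c i • e i = 0) : ∀ i, c i = 0 := by
  classical
  induction hn : (Finset.univ.filter fun i => c i ≠ 0).card using Nat.strong_induction_on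
    generalizing c with
  | _ n ih =>
    by_contra hcon
    push Not at hcon
    obtain ⟨i₀, hi₀⟩ := hcon
    -- normalise
    set c' : ι → C := fun i => c i / c i₀ with hc'
    have hc'0 : ∑ i, c' i • e i = 0 := by
      have : ∑ i, c' i • e i = (c i₀)⁻¹ • ∑ i, c i • e i := by
        rw [Finset.smul_sum]
        refine Finset.sum_congr rfl fun i _ => ?_
        rw [smul_smul]
        change (c i / c i₀) • e i = _
        rw [div_eq_inv_mul]
      rw [this, hc, smul_zero]
    have hc'1 : c' i₀ = 1 := div_self hi₀
    have hfix : ∀ i, Fix0 Γ (c' i) := by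
      intro i g
      set d : ι → C := fun i => g • c' i - c' i with hd
      have hd0 : ∑ i, d i • e i = 0 := by
        have h1 : ∑ i, (g • c' i) • e i = 0 := by
          funext x
          have h2 := congrFun hc'0 (α g⁻¹ x)
          simp only [Finset.sum_apply, Pi.smul_apply, smul_eq_mul, Pi.zero_apply] at h2 ⊢
          have h3 := congrArg (fun z => g • z) h2
          simp only [Finset.smul_sum, smul_mul', smul_zero] at h3
          rw [← h3]
          refine Finset.sum_congr rfl fun i _ => ?_
          rw [← he, act_act_inv]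
        simp only [hd, sub_smul, Finset.sum_sub_distrib, h1, hc'0, sub_zero]
      have hlt : (Finset.univ.filter fun i => d i ≠ 0).card < n := by
        rw [← hn]
        apply Finset.card_lt_card
        rw [Finset.ssubset_iff_of_subset]
        · refine ⟨i₀, by simp [hi₀], ?_⟩
          simp [hd, hc'1]
        · intro i hi
          rw [Finset.mem_filter] at hi ⊢
          refine ⟨Finset.mem_univ _, fun h0 => hi.2 ?_⟩
          simp [hd, hc', h0]
      have := ih _ hlt d hd0 rfl i
      exact sub_eq_zero.1 this
    have := hind c' hfix hc'0 i₀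
    rw [hc'1] at this
    exact one_ne_zero this

/-- **[F-Q2]** -/
theorem exists_indep_subfamily (v : Valuation C Γ₀) {E : Type} [AddCommGroup E] [Module C E]
    (s : Finset E) :
    ∃ t : Finset E, t ⊆ s ∧
      (∀ c : E → C, (∀ b, Fix0 Γ (c b)) → ∑ b ∈ t, c b • b = 0 → ∀ b ∈ t, c b = 0) ∧
      ∀ a ∈ s, ∃ c : E → C, (∀ b, c b ∈ O0 Γ v) ∧ a = ∑ b ∈ t, c b • b := by
  classical
  induction s using Finset.strongInduction with
  | H s ih =>
    by_cases hs : ∀ c : E → C, (∀ b, Fix0 Γ (c b)) → ∑ b ∈ s, c b • b = 0 → ∀ b ∈ s, c b = 0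
    · refine ⟨s, subset_rfl, hs, fun a ha => ⟨fun b => if b = a then 1 else 0, fun b => ?_, ?_⟩⟩
      · change (if b = a then (1 : C) else 0) ∈ O0 Γ v
        split_ifs
        · exact one_mem _
        · exact zero_mem _
      · simp only [ite_smul, one_smul, zero_smul]
        rw [Finset.sum_ite_eq' s a (fun b => b), if_pos ha]
    · push Not at hs
      obtain ⟨c, hcfix, hc0, b₁, hb₁, hb₁0⟩ := hs
      obtain ⟨b₀, hb₀, hmax⟩ := Finset.exists_max_image s (fun b => v (c b)) ⟨b₁, hb₁⟩
      have hcb₀ : c b₀ ≠ 0 := by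
        intro h0
        have h1 := hmax b₁ hb₁
        simp only [h0, map_zero] at h1
        exact hb₁0 ((map_eq_zero v).1 (le_antisymm h1 zero_le))
      obtain ⟨t, hts, hind, hgen⟩ := ih (s.erase b₀) (Finset.erase_ssubset hb₀)
      set r : E → C := fun b => -(c b) / c b₀ with hr
      have hrO : ∀ b ∈ s, r b ∈ O0 Γ v := by
        intro b hb
        refine ⟨?_, ?_⟩
        · rw [hr]
          simp only [div_eq_mul_inv]
          exact (hcfix b).neg.mul (hcfix b₀).inv
        · rw [hr]
          simp only [map_div₀, Valuation.map_neg]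
          exact div_le_one_of_le₀ (hmax b hb) zero_le
      have hb₀eq : b₀ = ∑ b ∈ s.erase b₀, r b • b := by
        rw [← Finset.add_sum_erase s _ hb₀] at hc0
        have h1 : c b₀ • b₀ = -∑ b ∈ s.erase b₀, c b • b := eq_neg_of_add_eq_zero_left hc0
        have h2 : b₀ = (c b₀)⁻¹ • (c b₀ • b₀) := by rw [smul_smul, inv_mul_cancel₀ hcb₀, one_smul]
        have h3 : (c b₀)⁻¹ • (c b₀ • b₀) = ∑ b ∈ s.erase b₀, r b • b := by
          rw [h1, ← Finset.sum_neg_distrib, Finset.smul_sum]
          refine Finset.sum_congr rfl fun b _ => ?_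
          rw [← neg_smul, smul_smul]
          change _ = (-(c b) / c b₀) • b
          rw [div_eq_inv_mul]
        exact h2.trans h3
      choose! γ hγO hγ using hgen
      refine ⟨t, hts.trans (Finset.erase_subset _ _), hind, fun a ha => ?_⟩
      by_cases hab : a = b₀
      · subst hab
        refine ⟨fun b' => ∑ b ∈ s.erase a, r b * γ b b', fun b' => ?_, ?_⟩
        · exact sum_mem fun b hb => mul_mem (hrO b (Finset.mem_of_mem_erase hb)) (hγO b hb b')
        · have h4 : ∑ b' ∈ t, (∑ b ∈ s.erase a, r b * γ b b') • b'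
              = ∑ b ∈ s.erase a, r b • b := by
            simp only [Finset.sum_smul]
            rw [Finset.sum_comm]
            refine Finset.sum_congr rfl fun b hb => ?_
            have h5 : r b • b = r b • ∑ b' ∈ t, γ b b' • b' := congrArg (fun z => r b • z) (hγ b hb)
            rw [h5, Finset.smul_sum]
            exact Finset.sum_congr rfl fun b' _ => by rw [smul_smul]
          exact hb₀eq.trans h4.symm
      · exact ⟨γ a, hγO a (Finset.mem_erase.2 ⟨hab, ha⟩), hγ a (Finset.mem_erase.2 ⟨hab, ha⟩)⟩

end Fermat.Agent.S56.Flat
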